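import Mathlib

/-!
Lagrange interpolation for modular forms on a finite index subgroup `Γ` of `SL(2, ℤ)`.

* `exists_integral_eq`: every modular form `f` on `Γ` satisfies a monic polynomial equation with
  coefficients level one modular forms.
* `exists_interp`: for fixed `g` with pairwise distinct conjugates, `D * f = ∑ h_i g^i` with
  `h_i` level one modular forms and `D = ∑ d_i g^i` nonzero.
-/

set_option autoImplicit false

open UpperHalfPlane ModularForm Matrix.SpecialLinearGroup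
open scoped MatrixGroups Manifold ModularForm

noncomputable section

namespace Fermat.Agent.IntStruct

/-- The algebra of functions on `ℍ` that are holomorphic and bounded at `i∞`. -/
def holBdd : Subalgebra ℂ (ℍ → ℂ) where
  carrier := {f | MDiff f ∧ IsBoundedAtImInfty f}
  mul_mem' ha hb := ⟨ha.1.mul hb.1, ha.2.mul hb.2⟩
  add_mem' ha hb := ⟨ha.1.add hb.1, ha.2.add hb.2⟩
  algebraMap_mem' r := ⟨mdifferentiable_const, Filter.const_boundedAtFilter _ r⟩

/-- Evaluation at `τ` on `holBdd`. -/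
def evH (τ : ℍ) : holBdd →+* ℂ := (Pi.evalRingHom (fun _ : ℍ => ℂ) τ).comp holBdd.val.toRingHom

@[simp] lemma evH_apply (τ : ℍ) (f : holBdd) : evH τ f = (f : ℍ → ℂ) τ := rfl

/-- The ideal of functions vanishing at `i∞`. -/
def holZero : Ideal holBdd where
  carrier := {f | IsZeroAtImInfty (f : ℍ → ℂ)}
  add_mem' {a b} ha hb := by
    simpa using! (Filter.Tendsto.add ha hb)
  zero_mem' := Filter.zero_zeroAtFilter _
  smul_mem' c f hf := by
    have := (show IsZeroAtImInfty (f : ℍ → ℂ) from hf).mul_boundedAtFilter c.2.2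
    simpa [mul_comm, IsZeroAtImInfty] using! this

lemma mem_holZero {f : holBdd} : f ∈ holZero ↔ IsZeroAtImInfty (f : ℍ → ℂ) := Iff.rfl

lemma slash_eq_self_of_inv {m : ℤ} {h : ℍ → ℂ}
    (inv : ∀ (γ : SL(2, ℤ)) (τ : ℍ), h (γ • τ) = denom γ τ ^ m * h τ) (γ : SL(2, ℤ)) :
    h ∣[m] γ = h := by
  ext τ
  rw [SL_slash_apply, inv, mul_comm (denom _ _ ^ m), mul_assoc, ← zpow_add₀ (denom_ne_zero γ τ)]
  simp

lemma inv_of_slash_eq_self {m : ℤ} {h : ℍ → ℂ} {γ : SL(2, ℤ)}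
    (inv : h ∣[m] γ = h) (τ : ℍ) : h (γ • τ) = denom γ τ ^ m * h τ := by
  have := congrFun inv τ
  rw [SL_slash_apply] at this
  rw [← this, mul_comm, mul_assoc, ← zpow_add₀ (denom_ne_zero γ τ)]
  simp

/-- A function on `ℍ` that is holomorphic, bounded at `i∞` and transforms with weight `m` under
`SL(2, ℤ)`, as a level one modular form. -/
def levelOneMk (m : ℤ) (h : ℍ → ℂ) (hol : MDiff h) (bdd : IsBoundedAtImInfty h)
    (inv : ∀ (γ : SL(2, ℤ)) (τ : ℍ), h (γ • τ) = denom γ τ ^ m * h τ) : ModularForm 𝒮ℒ m where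
  toFun := h
  slash_action_eq' := by
    rintro _ ⟨γ, rfl⟩
    exact slash_eq_self_of_inv inv γ
  holo' := hol
  bdd_at_cusps' {c} hc := by
    rw [OnePoint.isBoundedAt_iff_forall_SL2Z hc]
    intro γ _
    simpa [slash_eq_self_of_inv inv γ] using! bdd

@[simp] lemma coe_levelOneMk (m : ℤ) (h : ℍ → ℂ) (hol : MDiff h) (bdd : IsBoundedAtImInfty h)
    (inv : ∀ (γ : SL(2, ℤ)) (τ : ℍ), h (γ • τ) = denom γ τ ^ m * h τ) :
    ⇑(levelOneMk m h hol bdd inv) = h := rfl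

/-- The basic criterion: if `R : holBdd[X]` satisfies `R_{γτ}(j^w X) = j^m R_τ(X)` then the
coefficient of `X^i` is a level one modular form of weight `m - w * i`. -/
lemma exists_levelOne_coeff {w m : ℤ} (R : Polynomial holBdd)
    (hR : ∀ (γ : SL(2, ℤ)) (τ : ℍ),
      (R.map (evH (γ • τ))).comp (Polynomial.C (denom γ τ ^ w) * Polynomial.X) =
        Polynomial.C (denom γ τ ^ m) * R.map (evH τ)) (i : ℕ) :
    ∃ h : ModularForm 𝒮ℒ (m - w * i), (h : ℍ → ℂ) = (R.coeff i : ℍ → ℂ) := by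
  refine ⟨levelOneMk _ (R.coeff i : ℍ → ℂ) (R.coeff i).2.1 (R.coeff i).2.2 fun γ τ => ?_, rfl⟩
  have h := congrArg (fun P => Polynomial.coeff P i) (hR γ τ)
  simp only [Polynomial.comp_C_mul_X_coeff, Polynomial.coeff_map, Polynomial.coeff_C_mul,
    evH_apply] at h
  have hne : denom γ τ ≠ 0 := denom_ne_zero γ τ
  have hne' : (denom γ τ ^ w) ^ i ≠ 0 := pow_ne_zero _ (zpow_ne_zero _ hne)
  rw [zpow_sub₀ hne, zpow_mul, zpow_natCast]
  field_simp
  linear_combination h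

section conj

variable {Γ : Subgroup SL(2, ℤ)} {k : ℤ}

/-- The conjugates of a function invariant under `Γ`, indexed by `SL(2, ℤ) ⧸ Γ`. -/
def cj (f : ℍ → ℂ) (hf : ∀ γ ∈ Γ, f ∣[k] γ = f) (q : SL(2, ℤ) ⧸ Γ) : ℍ → ℂ :=
  Quotient.liftOn' q (fun g => f ∣[k] g⁻¹) (by
    intro a b hab
    rw [QuotientGroup.leftRel_apply] at hab
    have : b⁻¹ = (a⁻¹ * b)⁻¹ * a⁻¹ := by group
    show f ∣[k] a⁻¹ = f ∣[k] b⁻¹
    rw [this, SlashAction.slash_mul, hf _ (inv_mem hab)])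

variable {f : ℍ → ℂ} (hf : ∀ γ ∈ Γ, f ∣[k] γ = f)

@[simp] lemma cj_mk (g : SL(2, ℤ)) : cj f hf (g : SL(2, ℤ) ⧸ Γ) = f ∣[k] g⁻¹ := rfl

lemma cj_one : cj f hf ((1 : SL(2, ℤ)) : SL(2, ℤ) ⧸ Γ) = f := by simp

lemma cj_slash (γ : SL(2, ℤ)) (q : SL(2, ℤ) ⧸ Γ) : cj f hf q ∣[k] γ = cj f hf (γ⁻¹ • q) := by
  induction q using QuotientGroup.induction_on with
  | H g =>
    rw [cj_mk, ← SlashAction.slash_mul]
    show _ = cj f hf ((γ⁻¹ * g : SL(2, ℤ)) : SL(2, ℤ) ⧸ Γ)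
    rw [cj_mk]
    congr 1
    group

lemma cj_smul (γ : SL(2, ℤ)) (q : SL(2, ℤ) ⧸ Γ) (τ : ℍ) :
    cj f hf q (γ • τ) = denom γ τ ^ k * cj f hf (γ⁻¹ • q) τ := by
  rw [← cj_slash hf γ q, SL_slash_apply, mul_comm, mul_assoc, ← zpow_add₀ (denom_ne_zero γ τ)]
  simp

end conj

section poly

variable {Γ : Subgroup SL(2, ℤ)} {k w : ℤ}

lemma slash_eq_self (f : ModularForm (Γ : Subgroup (GL (Fin 2) ℝ)) k) (γ : SL(2, ℤ))
    (hγ : γ ∈ Γ) : (f : ℍ → ℂ) ∣[k] γ = f :=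
  SlashInvariantFormClass.slash_action_eq f _ ⟨γ, hγ, rfl⟩

variable [Γ.FiniteIndex]

/-- conjugates of a modular form as elements of `holBdd`. -/
def cjB (f : ModularForm (Γ : Subgroup (GL (Fin 2) ℝ)) k) (q : SL(2, ℤ) ⧸ Γ) : holBdd :=
  ⟨cj f (slash_eq_self f) q, by
    induction q using QuotientGroup.induction_on with
    | H g =>
      rw [cj_mk]
      exact ⟨(ModularFormClass.holo f).slash k _, ModularFormClass.bdd_at_infty_slash f g⁻¹⟩⟩

lemma coe_cjB (f : ModularForm (Γ : Subgroup (GL (Fin 2) ℝ)) k) (q : SL(2, ℤ) ⧸ Γ) :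
    (cjB f q : ℍ → ℂ) = cj f (slash_eq_self f) q := rfl

lemma cjB_smul (f : ModularForm (Γ : Subgroup (GL (Fin 2) ℝ)) k) (q : SL(2, ℤ) ⧸ Γ)
    (γ : SL(2, ℤ)) (τ : ℍ) :
    (cjB f q : ℍ → ℂ) (γ • τ) = denom γ τ ^ k * (cjB f (γ⁻¹ • q) : ℍ → ℂ) τ :=
  cj_smul (slash_eq_self f) γ q τ

lemma cjB_one (f : ModularForm (Γ : Subgroup (GL (Fin 2) ℝ)) k) :
    (cjB f ((1 : SL(2, ℤ)) : SL(2, ℤ) ⧸ Γ) : ℍ → ℂ) = f := cj_one (slash_eq_self f)

/-- a `Fintype` instance on the quotient -/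
instance instFintypeQuot : Fintype (SL(2, ℤ) ⧸ Γ) := Fintype.ofFinite _

open Classical in
open Polynomial in
/-- The characteristic polynomial of `f`. -/
def charP (f : ModularForm (Γ : Subgroup (GL (Fin 2) ℝ)) k) : holBdd[X] :=
  ∏ q : SL(2, ℤ) ⧸ Γ, (X - C (cjB f q))

open Classical in
open Polynomial in
/-- The Lagrange polynomial of `f` w.r.t. `g`. -/
def lagP (g : ModularForm (Γ : Subgroup (GL (Fin 2) ℝ)) w)
    (f : ModularForm (Γ : Subgroup (GL (Fin 2) ℝ)) k) : holBdd[X] :=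
  ∑ q : SL(2, ℤ) ⧸ Γ, C (cjB f q) * ∏ q' ∈ Finset.univ.erase q, (X - C (cjB g q'))

open Classical in
/-- The interpolation denominator. -/
def lagD (g : ModularForm (Γ : Subgroup (GL (Fin 2) ℝ)) w) : holBdd :=
  ∏ q ∈ Finset.univ.erase ((1 : SL(2, ℤ)) : SL(2, ℤ) ⧸ Γ),
    (cjB g ((1 : SL(2, ℤ)) : SL(2, ℤ) ⧸ Γ) - cjB g q)

open Polynomial in
lemma charP_transform (f : ModularForm (Γ : Subgroup (GL (Fin 2) ℝ)) k) (γ : SL(2, ℤ)) (τ : ℍ) :
    ((charP f).map (evH (γ • τ))).comp (C (denom γ τ ^ k) * X) =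
      C (denom γ τ ^ (k * (Fintype.card (SL(2, ℤ) ⧸ Γ) : ℤ))) * (charP f).map (evH τ) := by
  classical
  simp only [charP, Polynomial.map_prod, Polynomial.map_sub, map_X, map_C, evH_apply,
    Polynomial.prod_comp, sub_comp, X_comp, C_comp, cjB_smul, C_mul, mul_comp]
  simp only [← mul_sub]
  rw [Finset.prod_mul_distrib, Finset.prod_const, Finset.card_univ, zpow_mul, zpow_natCast, C_pow]
  congr 1
  exact Equiv.prod_comp (MulAction.toPerm (γ⁻¹) : Equiv.Perm (SL(2, ℤ) ⧸ Γ))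
    (fun q => (X : ℂ[X]) - C ((cjB f q : ℍ → ℂ) τ))

open Polynomial in
lemma lagP_transform (g : ModularForm (Γ : Subgroup (GL (Fin 2) ℝ)) w)
    (f : ModularForm (Γ : Subgroup (GL (Fin 2) ℝ)) k) (γ : SL(2, ℤ)) (τ : ℍ) :
    ((lagP g f).map (evH (γ • τ))).comp (C (denom γ τ ^ w) * X) =
      C (denom γ τ ^ (k + w * ((Fintype.card (SL(2, ℤ) ⧸ Γ) - 1 : ℕ) : ℤ))) *
        (lagP g f).map (evH τ) := by
  classical
  simp only [lagP, Polynomial.map_sum, Polynomial.map_mul, Polynomial.map_prod, Polynomial.map_sub,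
    map_X, map_C, evH_apply, Polynomial.prod_comp, sub_comp, X_comp, C_comp, cjB_smul, C_mul,
    Polynomial.sum_comp, mul_comp]
  simp only [← mul_sub]
  rw [Finset.mul_sum]
  rw [← Equiv.sum_comp (MulAction.toPerm (γ⁻¹) : Equiv.Perm (SL(2, ℤ) ⧸ Γ)) (fun i => _ * (_ * _))]
  refine Finset.sum_congr rfl fun q _ => ?_
  rw [Finset.prod_mul_distrib, Finset.prod_const, Finset.card_erase_of_mem (Finset.mem_univ _),
    Finset.card_univ, zpow_add₀ (denom_ne_zero γ τ), zpow_mul, zpow_natCast, C_mul, C_pow]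
  have : ∏ q' ∈ Finset.univ.erase q, ((X : ℂ[X]) - C ((cjB g (γ⁻¹ • q') : ℍ → ℂ) τ)) =
      ∏ q' ∈ Finset.univ.erase (γ⁻¹ • q), ((X : ℂ[X]) - C ((cjB g q' : ℍ → ℂ) τ)) := by
    refine Finset.prod_bij (fun a _ => γ⁻¹ • a) ?_ ?_ ?_ ?_
    · intro a ha
      simpa using ha
    · intro a _ b _ hab
      simpa using hab
    · intro b hb
      refine ⟨γ • b, ?_, by simp⟩
      simp only [Finset.mem_erase, Finset.mem_univ, and_true] at hb ⊢
      intro h
      exact hb (by simp [← h])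
    · intro a _
      rfl
  rw [this]
  simp only [MulAction.toPerm_apply]
  ring

open Polynomial in
lemma charP_monic (f : ModularForm (Γ : Subgroup (GL (Fin 2) ℝ)) k) : (charP f).Monic := by
  classical
  exact monic_prod_of_monic _ _ fun q _ => monic_X_sub_C _

open Polynomial in
lemma charP_natDegree (f : ModularForm (Γ : Subgroup (GL (Fin 2) ℝ)) k) :
    (charP f).natDegree = Fintype.card (SL(2, ℤ) ⧸ Γ) := by
  classical
  have : Nontrivial holBdd := (evH UpperHalfPlane.I).domain_nontrivial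
  rw [charP, natDegree_prod_of_monic _ _ fun q _ => monic_X_sub_C _]
  simp

open Polynomial in
lemma prod_X_sub_C_coeff_mem {R ι : Type*} [CommRing R] (s : Finset ι) (I : Ideal R) (a : ι → R)
    (ha : ∀ q ∈ s, a q ∈ I) (i : ℕ) (hi : i < s.card) :
    (∏ q ∈ s, (X - C (a q))).coeff i ∈ I := by
  rw [← Ideal.Quotient.eq_zero_iff_mem, ← Polynomial.coeff_map]
  have : (∏ q ∈ s, (X - C (a q))).map (Ideal.Quotient.mk I) = X ^ s.card := by
    simp only [Polynomial.map_prod, Polynomial.map_sub, map_X, map_C]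
    rw [← Finset.prod_const]
    refine Finset.prod_congr rfl fun q hq => ?_
    rw [Ideal.Quotient.eq_zero_iff_mem.mpr (ha q hq)]
    simp
  rw [this, coeff_X_pow, if_neg hi.ne]

lemma charP_coeff_mem (f : ModularForm (Γ : Subgroup (GL (Fin 2) ℝ)) k)
    (hz : ∀ q : SL(2, ℤ) ⧸ Γ, cjB f q ∈ holZero) (i : ℕ) (hi : i < Fintype.card (SL(2, ℤ) ⧸ Γ)) :
    (charP f).coeff i ∈ holZero := by
  classical
  exact prod_X_sub_C_coeff_mem Finset.univ holZero _ (fun q _ => hz q) i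
    (by rwa [Finset.card_univ])

/-- Every modular form `f` of weight `k` on `Γ` satisfies a monic equation with coefficients level
one modular forms. -/
theorem exists_integral_eq (f : ModularForm (Γ : Subgroup (GL (Fin 2) ℝ)) k) :
    ∃ (d : ℕ) (p : ∀ i : ℕ, ModularForm 𝒮ℒ (k * d - k * i)),
      (∀ τ, f τ ^ d + ∑ i ∈ Finset.range d, p i τ * f τ ^ i = 0) ∧
      ((∀ γ : SL(2, ℤ), IsZeroAtImInfty ((f : ℍ → ℂ) ∣[k] γ)) →
        ∀ i < d, IsZeroAtImInfty (p i : ℍ → ℂ)) := by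
  classical
  choose p hp using exists_levelOne_coeff (charP f) (charP_transform f)
  refine ⟨Fintype.card (SL(2, ℤ) ⧸ Γ), p, fun τ => ?_, fun hz i hi => ?_⟩
  · have h0 : ((charP f).map (evH τ)).eval (f τ) = 0 := by
      rw [← cjB_one f, ← evH_apply, Polynomial.eval_map_apply, charP, Polynomial.eval_prod,
        Finset.prod_eq_zero (Finset.mem_univ ((1 : SL(2, ℤ)) : SL(2, ℤ) ⧸ Γ)) (by simp), map_zero]
    rw [Polynomial.eval_eq_sum_range, (charP_monic f).natDegree_map, charP_natDegree,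
      Finset.sum_range_succ] at h0
    rw [add_comm]
    convert h0 using 2
    · refine Finset.sum_congr rfl fun i _ => ?_
      rw [Polynomial.coeff_map, evH_apply, hp]
    · have := charP_monic f
      rw [Polynomial.Monic, Polynomial.leadingCoeff, charP_natDegree] at this
      rw [Polynomial.coeff_map, this, map_one, one_mul]
  · rw [hp]
    refine charP_coeff_mem f (fun q => ?_) i hi
    induction q using QuotientGroup.induction_on with
    | H g => exact hz g⁻¹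

/-- Lagrange interpolation. -/
theorem exists_interp (g : ModularForm (Γ : Subgroup (GL (Fin 2) ℝ)) w)
    (f : ModularForm (Γ : Subgroup (GL (Fin 2) ℝ)) k) :
    ∃ (n : ℕ) (h : ∀ i : ℕ, ModularForm 𝒮ℒ
        (k + w * ((Fintype.card (SL(2, ℤ) ⧸ Γ) - 1 : ℕ) : ℤ) - w * i)),
      ∀ τ, (lagD g : ℍ → ℂ) τ * f τ = ∑ i ∈ Finset.range n, h i τ * g τ ^ i := by
  classical
  choose h hh using exists_levelOne_coeff (lagP g f) (lagP_transform g f)
  refine ⟨(lagP g f).natDegree + 1, h, fun τ => ?_⟩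
  have h0 : (lagP g f).eval (cjB g ((1 : SL(2, ℤ)) : SL(2, ℤ) ⧸ Γ)) =
      cjB f ((1 : SL(2, ℤ)) : SL(2, ℤ) ⧸ Γ) * lagD g := by
    rw [lagP, Polynomial.eval_finsetSum,
      Finset.sum_eq_single ((1 : SL(2, ℤ)) : SL(2, ℤ) ⧸ Γ)]
    · simp [lagD, Polynomial.eval_prod]
    · intro q _ hq
      rw [Polynomial.eval_mul, Polynomial.eval_prod, Finset.prod_eq_zero
        (i := ((1 : SL(2, ℤ)) : SL(2, ℤ) ⧸ Γ)) (by simpa using hq.symm) (by simp), mul_zero]
    · simp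
  have h1 := congrArg (evH τ) h0
  rw [map_mul, evH_apply _ (cjB f _), cjB_one, Polynomial.eval_eq_sum_range, map_sum] at h1
  rw [mul_comm, ← evH_apply, ← h1]
  refine Finset.sum_congr rfl fun i _ => ?_
  rw [map_mul, map_pow, evH_apply _ (cjB g _), cjB_one, evH_apply, hh]

/-- If the stabiliser of `g` in `SL(2, ℤ)` is `Γ` then the interpolation denominator is nonzero. -/
lemma lagD_ne_zero (g : ModularForm (Γ : Subgroup (GL (Fin 2) ℝ)) w)
    (hg : ∀ γ : SL(2, ℤ), (g : ℍ → ℂ) ∣[w] γ = g → γ ∈ Γ) : (lagD g : ℍ → ℂ) ≠ 0 := by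
  classical
  intro h0
  have h1 : (lagD g : ℍ → ℂ) = ∏ q ∈ Finset.univ.erase ((1 : SL(2, ℤ)) : SL(2, ℤ) ⧸ Γ),
      ((cjB g ((1 : SL(2, ℤ)) : SL(2, ℤ) ⧸ Γ) : ℍ → ℂ) - (cjB g q : ℍ → ℂ)) := by
    rw [lagD]
    simp
  rw [h1, UpperHalfPlane.prod_eq_zero_iff] at h0
  · obtain ⟨q, hq, hq0⟩ := h0
    induction q using QuotientGroup.induction_on with
    | H a =>
      rw [cjB_one, sub_eq_zero] at hq0
      have h2 := hg a⁻¹ hq0.symm
      apply (Finset.mem_erase.mp hq).1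
      rw [QuotientGroup.eq]
      simpa using h2
  · intro q _
    exact (cjB g _).2.1.sub (cjB g q).2.1

end poly

end Fermat.Agent.IntStruct
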