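import Mathlib

/-!
# `ℤ⟦X⟧` is completely integrally closed in `ℚ⟦X⟧`, and bounded denominators
-/

set_option autoImplicit false

open PowerSeries

namespace Fermat.Agent.IntStruct

/-- The canonical map `ℤ⟦X⟧ → K⟦X⟧`. -/
noncomputable abbrev intMap (K : Type*) [CommRing K] : ℤ⟦X⟧ →+* K⟦X⟧ :=
  PowerSeries.map (Int.castRingHom K)

theorem mem_range_intMap_iff {K : Type*} [CommRing K] (F : K⟦X⟧) :
    F ∈ (intMap K).range ↔ ∀ n, ∃ m : ℤ, (m : K) = coeff n F := by
  constructor
  · rintro ⟨G, rfl⟩ n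
    exact ⟨coeff n G, by simp⟩
  · intro h
    choose c hc using h
    exact ⟨PowerSeries.mk c, by ext n; simp [hc]⟩

theorem intMap_injective (K : Type*) [CommRing K] [CharZero K] :
    Function.Injective (intMap K) := by
  intro F G h
  ext n
  have := congrArg (coeff n) h
  simpa using this

theorem exists_int_of_forall_mul_pow {g : ℤ} (hg : g ≠ 0) {a : ℚ}
    (h : ∀ n, ∃ m : ℤ, (m : ℚ) = g * a ^ n) : ∃ m : ℤ, (m : ℚ) = a := by
  have h1 : IsAlmostIntegral ℤ a := by
    refine ⟨g, mem_nonZeroDivisors_of_ne_zero hg, fun n => ?_⟩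
    obtain ⟨m, hm⟩ := h n
    exact ⟨m, by simpa using hm⟩
  obtain ⟨m, hm⟩ := IsIntegrallyClosed.isIntegral_iff.1 h1.isIntegral
  exact ⟨m, by simpa using hm⟩

theorem exists_int_eq_constantCoeff (G : ℤ⟦X⟧) (hG : G ≠ 0) (F : ℚ⟦X⟧)
    (h : ∀ n, intMap ℚ G * F ^ n ∈ (intMap ℚ).range) :
    ∃ m : ℤ, (m : ℚ) = constantCoeff F := by
  obtain ⟨m, hm⟩ : ∃ m, G.order = (m : ℕ) := by
    have := PowerSeries.order_eq_top.not.2 hG
    exact ⟨G.order.toNat, (ENat.natCast_toNat this).symm⟩
  have hgm : coeff m G ≠ 0 := by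
    have := PowerSeries.coeff_order hG
    rwa [hm] at this
  apply exists_int_of_forall_mul_pow hgm
  intro n
  have h1 := (mem_range_intMap_iff _).1 (h n) m
  obtain ⟨k, hk⟩ := h1
  refine ⟨k, ?_⟩
  rw [hk, PowerSeries.coeff_mul]
  rw [Finset.sum_eq_single (m, 0)]
  · simp
  · rintro ⟨a, b⟩ hab hne
    have hlt : a < m := by
      rw [Finset.HasAntidiagonal.mem_antidiagonal] at hab
      simp only at hab
      rcases Nat.lt_or_ge a m with h' | h'
      · exact h'
      · exfalso; apply hne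
        have h1 : a = m := by omega
        have h2 : b = 0 := by omega
        rw [h1, h2]
    have : coeff a G = 0 := PowerSeries.coeff_of_lt_order _ (by rw [hm]; exact_mod_cast hlt)
    simp [this]
  · intro hmem
    simp at hmem

/-- if `G * F ^ n` is integral for all `n`, then so is `F`. -/
theorem mem_range_intMap_of_forall_mul_pow (G : ℤ⟦X⟧) (hG : G ≠ 0) (F : ℚ⟦X⟧)
    (h : ∀ n, intMap ℚ G * F ^ n ∈ (intMap ℚ).range) : F ∈ (intMap ℚ).range := by
  rw [mem_range_intMap_iff]
  intro j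
  induction j generalizing F with
  | zero =>
    simpa using exists_int_eq_constantCoeff G hG F h
  | succ j ih =>
    obtain ⟨a, ha⟩ := exists_int_eq_constantCoeff G hG F h
    have key := ih (PowerSeries.mk fun p => coeff (p + 1) F) ?_
    · simpa using key
    · intro n
      set F' : ℚ⟦X⟧ := PowerSeries.mk fun p => coeff (p + 1) F with hF'
      have hF : X * F' = F - C (a : ℚ) := by
        rw [ha]
        exact (sub_eq_of_eq_add (eq_X_mul_shift_add_const F)).symm
      have hmem : intMap ℚ G * (F - C (a : ℚ)) ^ n ∈ (intMap ℚ).range := by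
        rw [sub_eq_add_neg, add_pow, Finset.mul_sum]
        refine Subring.sum_mem _ fun i _ => ?_
        rw [← mul_assoc, ← mul_assoc]
        refine Subring.mul_mem _ (Subring.mul_mem _ (h i) ?_) ?_
        · refine Subring.pow_mem _ (Subring.neg_mem _ ?_) _
          exact ⟨C a, by simp⟩
        · exact ⟨(n.choose i : ℤ⟦X⟧), by simp⟩
      rw [mem_range_intMap_iff] at hmem ⊢
      intro m
      obtain ⟨k, hk⟩ := hmem (m + n)
      refine ⟨k, ?_⟩
      rw [hk, ← hF, mul_pow, mul_left_comm, PowerSeries.coeff_X_pow_mul]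

theorem mem_range_of_isAlmostIntegral (F : ℚ⟦X⟧) (h : IsAlmostIntegral ℤ⟦X⟧ F) :
    F ∈ (intMap ℚ).range := by
  obtain ⟨G, hG, h⟩ := h
  refine mem_range_intMap_of_forall_mul_pow G (nonZeroDivisors.ne_zero hG) F fun n => ?_
  obtain ⟨H, hH⟩ := h n
  exact ⟨H, by rw [Algebra.smul_def] at hH; exact hH⟩

end Fermat.Agent.IntStruct
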