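import Mathlib
import Fermat.Agent.IntStruct.IntClosed

/-!
# Bounded denominators

`intSpan` is the `ℂ`-subalgebra of `ℂ⟦X⟧` spanned by the power series with integer coefficients.
If `B ∈ ℚ⟦X⟧` is integral over `intSpan` and `c * B ∈ intSpan` for some nonzero `c ∈ intSpan`, then
`B` has bounded denominators.
-/

set_option autoImplicit false

open PowerSeries

namespace Fermat.Agent.IntStruct

theorem intMap_C {K : Type*} [CommRing K] (D : ℤ) : intMap K (C D) = C (D : K) := by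
  rw [intMap, PowerSeries.map_C]; rfl

/-- The `ℂ`-algebra generated (equivalently: the vector space spanned) by `ℤ⟦X⟧` in `ℂ⟦X⟧`. -/
noncomputable def intSpan : Subalgebra ℂ ℂ⟦X⟧ :=
  Algebra.adjoin ℂ ((intMap ℂ).range : Set ℂ⟦X⟧)

theorem intMap_mem_intSpan (G : ℤ⟦X⟧) : intMap ℂ G ∈ intSpan :=
  Algebra.subset_adjoin ⟨G, rfl⟩

theorem mem_intSpan_of_forall_int {F : ℂ⟦X⟧} (h : ∀ n, ∃ m : ℤ, (m : ℂ) = coeff n F) :
    F ∈ intSpan := by
  obtain ⟨G, rfl⟩ := (mem_range_intMap_iff F).2 h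
  exact intMap_mem_intSpan G

theorem toSubmodule_intSpan :
    Subalgebra.toSubmodule intSpan = Submodule.span ℂ ((intMap ℂ).range : Set ℂ⟦X⟧) := by
  rw [intSpan, Algebra.adjoin_eq_span]
  congr 1
  exact congrArg _ (Submonoid.closure_eq (intMap ℂ).range.toSubmonoid)

/-- Apply a `ℚ`-linear functional coefficientwise. -/
noncomputable def coeffFun (π : ℂ →ₗ[ℚ] ℚ) : ℂ⟦X⟧ →+ ℚ⟦X⟧ where
  toFun F := PowerSeries.mk fun n => π (coeff n F)
  map_zero' := by ext; simp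
  map_add' F G := by ext; simp

@[simp] theorem coeff_coeffFun (π : ℂ →ₗ[ℚ] ℚ) (F : ℂ⟦X⟧) (n : ℕ) :
    coeff n (coeffFun π F) = π (coeff n F) := by simp [coeffFun]

theorem coeffFun_mul_map (π : ℂ →ₗ[ℚ] ℚ) (F : ℂ⟦X⟧) (B : ℚ⟦X⟧) :
    coeffFun π (F * B.map (algebraMap ℚ ℂ)) = coeffFun π F * B := by
  ext n
  rw [coeff_coeffFun, PowerSeries.coeff_mul, PowerSeries.coeff_mul, map_sum]
  refine Finset.sum_congr rfl fun p _ => ?_
  rw [coeff_coeffFun, PowerSeries.coeff_map, mul_comm, ← Algebra.smul_def, map_smul, smul_eq_mul,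
    mul_comm]

theorem coeffFun_map (π : ℂ →ₗ[ℚ] ℚ) (B : ℚ⟦X⟧) :
    coeffFun π (B.map (algebraMap ℚ ℂ)) = C (π 1) * B := by
  have h := coeffFun_mul_map π 1 B
  rw [one_mul] at h
  rw [h]
  congr 1
  ext n
  rw [coeff_coeffFun, PowerSeries.coeff_one, PowerSeries.coeff_C]
  split_ifs <;> simp

theorem coeffFun_smul_intMap (π : ℂ →ₗ[ℚ] ℚ) (a : ℂ) (G : ℤ⟦X⟧) :
    coeffFun π (a • intMap ℂ G) = C (π a) * intMap ℚ G := by
  ext n
  rw [coeff_coeffFun, PowerSeries.coeff_smul, PowerSeries.coeff_C_mul, PowerSeries.coeff_map,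
    PowerSeries.coeff_map]
  have : a • (Int.castRingHom ℂ) ((coeff n) G) = ((coeff n G : ℤ) : ℚ) • a := by
    rw [Algebra.smul_def (_ : ℚ), smul_eq_mul, mul_comm]
    simp
  rw [this, map_smul]
  simp [mul_comm]

/-- elements with bounded denominators -/
def BddDen (F : ℚ⟦X⟧) : Prop := ∃ D : ℤ, D ≠ 0 ∧ C (D : ℚ) * F ∈ (intMap ℚ).range

theorem bddDen_coeffFun (π : ℂ →ₗ[ℚ] ℚ) {F : ℂ⟦X⟧} (hF : F ∈ intSpan) :
    BddDen (coeffFun π F) := by
  have hF' : F ∈ Submodule.span ℂ ((intMap ℂ).range : Set ℂ⟦X⟧) := by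
    rw [← toSubmodule_intSpan]; exact hF
  suffices h : ∀ a : ℂ, BddDen (coeffFun π (a • F)) by simpa using h 1
  clear hF
  induction hF' using Submodule.span_induction with
  | mem x hx =>
    obtain ⟨G, rfl⟩ := hx
    intro a
    rw [coeffFun_smul_intMap]
    refine ⟨(π a).den, by simp, ?_⟩
    refine ⟨C (π a).num * G, ?_⟩
    rw [map_mul, ← mul_assoc, ← map_mul C]
    congr 1
    ext n
    rw [PowerSeries.coeff_map, PowerSeries.coeff_C, PowerSeries.coeff_C]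
    split_ifs
    · simp only [eq_intCast, Int.cast_natCast]
      rw [mul_comm]; exact (Rat.mul_den_eq_num _).symm
    · simp
  | zero => intro a; exact ⟨1, one_ne_zero, 0, by simp⟩
  | add x y _ _ hx hy =>
    intro a
    obtain ⟨D₁, h₁, G₁, hG₁⟩ := hx a
    obtain ⟨D₂, h₂, G₂, hG₂⟩ := hy a
    refine ⟨D₁ * D₂, mul_ne_zero h₁ h₂, C D₂ * G₁ + C D₁ * G₂, ?_⟩
    rw [smul_add, map_add, map_add, map_mul, map_mul, hG₁, hG₂, intMap_C, intMap_C,
      Int.cast_mul, map_mul]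
    ring
  | smul b x _ hx =>
    intro a
    rw [smul_smul]
    exact hx _

theorem exists_functional_eq_one {z : ℂ} (hz : z ≠ 0) : ∃ π : ℂ →ₗ[ℚ] ℚ, π z = 1 := by
  have h : ¬ ∀ φ : Module.Dual ℚ ℂ, φ z = 0 := fun h =>
    hz ((Module.forall_dual_apply_eq_zero_iff ℚ z).1 h)
  push Not at h
  obtain ⟨φ, hφ⟩ := h
  exact ⟨(φ z)⁻¹ • φ, by simp [hφ]⟩

/-- **Bounded denominators.** -/
theorem exists_int_mul_mem_range (B : ℚ⟦X⟧) (d : ℕ) (p : ℕ → ℂ⟦X⟧)
    (hp : ∀ i < d, p i ∈ intSpan)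
    (heq : (B.map (algebraMap ℚ ℂ)) ^ d +
      ∑ i ∈ Finset.range d, p i * (B.map (algebraMap ℚ ℂ)) ^ i = 0)
    (c : ℂ⟦X⟧) (hc : c ∈ intSpan) (hc0 : c ≠ 0) (hcB : c * B.map (algebraMap ℚ ℂ) ∈ intSpan) :
    ∃ D : ℤ, D ≠ 0 ∧ C (D : ℚ) * B ∈ (intMap ℚ).range := by
  classical
  -- step 1: an integral equation over `ℚ⟦X⟧` with bounded denominators
  obtain ⟨π, hπ⟩ := exists_functional_eq_one (one_ne_zero (α := ℂ))
  have heq' : B ^ d + ∑ i ∈ Finset.range d, coeffFun π (p i) * B ^ i = 0 := by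
    have h := congrArg (coeffFun π) heq
    rw [map_add, map_sum, map_zero] at h
    simp only [← map_pow, coeffFun_mul_map] at h
    rw [coeffFun_map, hπ] at h
    simpa using h
  have hbd : ∀ i, ∃ D : ℤ, D ≠ 0 ∧ (i < d → C (D : ℚ) * coeffFun π (p i) ∈ (intMap ℚ).range) := by
    intro i
    by_cases hi : i < d
    · obtain ⟨D, hD, h⟩ := bddDen_coeffFun π (hp i hi)
      exact ⟨D, hD, fun _ => h⟩
    · exact ⟨1, one_ne_zero, fun h => absurd h hi⟩
  choose Di hDi hDi' using hbd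
  set E : ℤ := ∏ i ∈ Finset.range d, Di i with hE
  have hE0 : E ≠ 0 := Finset.prod_ne_zero_iff.2 fun i _ => hDi i
  have hEi : ∀ i < d, C (E : ℚ) * coeffFun π (p i) ∈ (intMap ℚ).range := by
    intro i hi
    rw [hE, ← Finset.mul_prod_erase _ _ (Finset.mem_range.2 hi)]
    rw [Int.cast_mul, map_mul, mul_comm (C _) (C _), mul_assoc]
    refine Subring.mul_mem _ ?_ (hDi' i hi)
    exact RingHom.mem_range.2 ⟨C (∏ x ∈ (Finset.range d).erase i, Di x), intMap_C _⟩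
  choose! q hq using hEi
  set B' : ℚ⟦X⟧ := C (E : ℚ) * B with hB'
  -- `B'` is integral over `ℤ⟦X⟧`
  have hint : IsIntegral ℤ⟦X⟧ B' := by
    refine ⟨Polynomial.X ^ d + ∑ i ∈ Finset.range d,
      Polynomial.C (C (E ^ (d - i - 1)) * q i) * Polynomial.X ^ i, ?_, ?_⟩
    · apply Polynomial.monic_X_pow_add
      rw [Polynomial.degree_lt_iff_coeff_zero]
      intro m hm
      rw [Polynomial.finsetSum_coeff]
      refine Finset.sum_eq_zero fun i hi => ?_
      rw [Polynomial.coeff_C_mul_X_pow, if_neg]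
      have := Finset.mem_range.1 hi
      omega
    · rw [Polynomial.eval₂_add, Polynomial.eval₂_X_pow, Polynomial.eval₂_finsetSum]
      have hterm : ∀ i ∈ Finset.range d, Polynomial.eval₂ (algebraMap ℤ⟦X⟧ ℚ⟦X⟧) B'
          (Polynomial.C (C (E ^ (d - i - 1)) * q i) * Polynomial.X ^ i) =
          C ((E : ℚ) ^ d) * (coeffFun π (p i) * B ^ i) := by
        intro i hi
        rw [Finset.mem_range] at hi
        rw [Polynomial.eval₂_mul, Polynomial.eval₂_C, Polynomial.eval₂_X_pow, map_mul]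
        have h1 : (algebraMap ℤ⟦X⟧ ℚ⟦X⟧) (q i) = C (E : ℚ) * coeffFun π (p i) := hq i hi
        have h2 : (algebraMap ℤ⟦X⟧ ℚ⟦X⟧) (C (E ^ (d - i - 1))) = C ((E : ℚ) ^ (d - i - 1)) := by
          rw [← Int.cast_pow]
          exact intMap_C _
        rw [h1, h2, hB', mul_pow]
        have h3 : (E : ℚ) ^ d = (E : ℚ) ^ (d - i - 1) * E * E ^ i := by
          rw [← pow_succ, ← pow_add]
          congr 1
          omega
        rw [h3, map_mul, map_mul, map_pow C (E : ℚ) i]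
        ring
      rw [Finset.sum_congr rfl hterm, ← Finset.mul_sum, hB', mul_pow, ← map_pow, ← mul_add, heq',
        mul_zero]
  -- step 2: a common denominator
  obtain ⟨n, hn⟩ : ∃ n, coeff n c ≠ 0 := by
    by_contra hcon
    push Not at hcon
    exact hc0 (PowerSeries.ext (by simpa using hcon))
  obtain ⟨π₂, hπ₂⟩ := exists_functional_eq_one hn
  obtain ⟨D₁, hD₁, t₁, ht₁⟩ := bddDen_coeffFun π₂ hc
  obtain ⟨D₂, hD₂, t₂, ht₂⟩ := bddDen_coeffFun π₂ hcB
  rw [coeffFun_mul_map] at ht₂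
  have hpc : coeffFun π₂ c ≠ 0 := by
    intro h
    have := congrArg (coeff n) h
    rw [coeff_coeffFun, hπ₂] at this
    simp at this
  have hC0 : ∀ D : ℤ, D ≠ 0 → (C (D : ℚ) : ℚ⟦X⟧) ≠ 0 := by
    intro D hD h
    have := congrArg (constantCoeff) h
    rw [PowerSeries.constantCoeff_C] at this
    simp at this
    exact hD this
  have ht₁0 : t₁ ≠ 0 := by
    rintro rfl
    rw [map_zero] at ht₁
    rcases mul_eq_zero.1 ht₁.symm with h | h
    · exact hC0 _ hD₁ h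
    · exact hpc h
  have halm : IsAlmostIntegral ℤ⟦X⟧ B' := by
    refine hint.isAlmostIntegral_of_exists_smul_mem_range ⟨C D₂ * t₁, ?_, ?_⟩
    · refine mem_nonZeroDivisors_of_ne_zero (mul_ne_zero ?_ ht₁0)
      intro h
      have := congrArg (constantCoeff) h
      rw [PowerSeries.constantCoeff_C] at this
      simp at this
      exact hD₂ this
    · refine ⟨C (D₁ * E) * t₂, ?_⟩
      rw [Algebra.smul_def]
      have h1 : (algebraMap ℤ⟦X⟧ ℚ⟦X⟧) t₁ = C (D₁ : ℚ) * coeffFun π₂ c := ht₁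
      have h2 : (algebraMap ℤ⟦X⟧ ℚ⟦X⟧) t₂ = C (D₂ : ℚ) * (coeffFun π₂ c * B) := ht₂
      have h3 : ∀ D : ℤ, (algebraMap ℤ⟦X⟧ ℚ⟦X⟧) (C D) = C (D : ℚ) := fun D => intMap_C _
      rw [map_mul (algebraMap ℤ⟦X⟧ ℚ⟦X⟧), map_mul (algebraMap ℤ⟦X⟧ ℚ⟦X⟧), h1, h2, h3, h3, hB',
        Int.cast_mul, map_mul]
      ring
  exact ⟨E, hE0, mem_range_of_isAlmostIntegral _ halm⟩

end Fermat.Agent.IntStruct
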