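import Mathlib
import Fermat.Agent.IntStruct.BddDenom

/-!
# Integral structure on level one modular forms

Every level one modular form is a `ℂ`-linear combination of level one forms with integral
`q`-expansion. Consequences: `σ`-conjugates exist, and `q`-expansions lie in `intSpan`.
-/

set_option autoImplicit false

open PowerSeries UpperHalfPlane ModularForm MatrixGroups EisensteinSeries

namespace Fermat.Agent.IntStruct

section general

variable {Γ : Subgroup (GL (Fin 2) ℝ)} {k : ℤ}

/-- The set of modular forms with integral `q`-expansion (period `1`). -/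
def intForms (Γ : Subgroup (GL (Fin 2) ℝ)) (k : ℤ) : Set (ModularForm Γ k) :=
  {f | qExpansion 1 f ∈ (intMap ℂ).range}

theorem qExpansion_mem_intSpan_of_mem_span (hΓ : (1 : ℝ) ∈ Γ.strictPeriods) [Γ.HasDetOne]
    {f : ModularForm Γ k} (hf : f ∈ Submodule.span ℂ (intForms Γ k)) :
    qExpansion 1 f ∈ intSpan := by
  induction hf using Submodule.span_induction with
  | mem x hx =>
    obtain ⟨G, hG⟩ := hx
    rw [← hG]
    exact intMap_mem_intSpan G
  | zero =>
    rw [FunLike.coe_zero, qExpansion_zero]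
    exact zero_mem _
  | add x y _ _ hx hy =>
    rw [FunLike.coe_add, ModularForm.qExpansion_add one_pos hΓ]
    exact add_mem hx hy
  | smul a x _ hx =>
    rw [FunLike.coe_smul, ModularForm.qExpansion_smul one_pos hΓ]
    exact intSpan.smul_mem hx a

theorem exists_conj_of_mem_span (hΓ : (1 : ℝ) ∈ Γ.strictPeriods) [Γ.HasDetOne]
    (σ : ℂ →+* ℂ) {f : ModularForm Γ k} (hf : f ∈ Submodule.span ℂ (intForms Γ k)) :
    ∃ f' : ModularForm Γ k, qExpansion 1 f' = (qExpansion 1 f).map σ := by
  induction hf using Submodule.span_induction with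
  | mem x hx =>
    obtain ⟨G, hG⟩ := hx
    refine ⟨x, ?_⟩
    rw [← hG]
    ext n
    simp
  | zero =>
    refine ⟨0, ?_⟩
    rw [FunLike.coe_zero, qExpansion_zero, map_zero]
  | add x y _ _ hx hy =>
    obtain ⟨x', hx'⟩ := hx
    obtain ⟨y', hy'⟩ := hy
    refine ⟨x' + y', ?_⟩
    rw [FunLike.coe_add, ModularForm.qExpansion_add one_pos hΓ, FunLike.coe_add,
      ModularForm.qExpansion_add one_pos hΓ, hx', hy', map_add]
  | smul a x _ hx =>
    obtain ⟨x', hx'⟩ := hx
    refine ⟨σ a • x', ?_⟩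
    rw [FunLike.coe_smul, ModularForm.qExpansion_smul one_pos hΓ, FunLike.coe_smul,
      ModularForm.qExpansion_smul one_pos hΓ, hx']
    ext n
    simp

end general

theorem qExpansion_E₄_mem : qExpansion 1 E₄ ∈ (intMap ℂ).range := by
  rw [mem_range_intMap_iff]
  intro n
  rw [E_qExpansion_coeff _ ⟨2, rfl⟩]
  split_ifs with h
  · exact ⟨1, by simp⟩
  · refine ⟨240 * (ArithmeticFunction.sigma (4 - 1) n : ℕ), ?_⟩
    rw [show bernoulli 4 = -1 / 30 by decide +kernel]
    push_cast
    ring

theorem qExpansion_E₆_mem : qExpansion 1 E₆ ∈ (intMap ℂ).range := by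
  rw [mem_range_intMap_iff]
  intro n
  rw [E_qExpansion_coeff _ ⟨3, rfl⟩]
  split_ifs with h
  · exact ⟨1, by simp⟩
  · refine ⟨-504 * (ArithmeticFunction.sigma (6 - 1) n : ℕ), ?_⟩
    rw [show bernoulli 6 = 1 / 42 by decide +kernel]
    push_cast
    ring

/-- `1728 Δ` -/
noncomputable def Delta1728 : ModularForm 𝒮ℒ 12 :=
  ModularForm.mcast (by decide) (E₄.pow 3) - ModularForm.mcast (by decide) (E₆.pow 2)

theorem Delta1728_apply (z : ℍ) : Delta1728 z = 1728 * ModularForm.discriminant z := by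
  rw [discriminant_eq_E₄_cube_sub_E₆_sq]
  have : Delta1728 z = E₄ z ^ 3 - E₆ z ^ 2 := by
    simp only [Delta1728, coe_mcast, ModularForm.coe_pow, sub_apply, Pi.pow_apply]
  rw [this]
  ring

theorem Delta1728_mem : Delta1728 ∈ intForms 𝒮ℒ 12 := by
  have h : qExpansion 1 Delta1728 = qExpansion 1 E₄ ^ 3 - qExpansion 1 E₆ ^ 2 := by
    simp only [Delta1728, FunLike.coe_sub, coe_mcast,
      ModularForm.qExpansion_sub one_pos one_mem_strictPeriods_SL,
      ModularForm.qExpansion_pow one_pos one_mem_strictPeriods_SL]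
  rw [intForms, Set.mem_ofPred_eq, h]
  exact Subring.sub_mem _ (Subring.pow_mem _ qExpansion_E₄_mem _)
    (Subring.pow_mem _ qExpansion_E₆_mem _)

/-- for even `k ≥ 4` there is an integral form of weight `k` with constant term `1` -/
theorem exists_intForm_coeff_zero_eq_one (k : ℕ) (hk : 4 ≤ k) (hk2 : Even k) :
    ∃ f : ModularForm 𝒮ℒ k, f ∈ intForms 𝒮ℒ k ∧ (qExpansion 1 f).coeff 0 = 1 := by
  obtain ⟨a, b, hab⟩ : ∃ a b : ℕ, (4 * a + 6 * b : ℕ) = k := by
    obtain ⟨m, hm⟩ := hk2
    rcases Nat.even_or_odd m with ⟨t, ht⟩ | ⟨t, ht⟩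
    · exact ⟨t, 0, by omega⟩
    · exact ⟨t - 1, 1, by omega⟩
  refine ⟨ModularForm.mcast (by rw [← hab]; push_cast; ring) ((E₄.pow a).mul (E₆.pow b)), ?_, ?_⟩
  · rw [intForms, Set.mem_ofPred_eq, ModularForm.qExpansion_mcast,
      ModularForm.qExpansion_mul one_pos one_mem_strictPeriods_SL,
      ModularForm.qExpansion_pow one_pos one_mem_strictPeriods_SL,
      ModularForm.qExpansion_pow one_pos one_mem_strictPeriods_SL]
    exact Subring.mul_mem _ (Subring.pow_mem _ qExpansion_E₄_mem _)
      (Subring.pow_mem _ qExpansion_E₆_mem _)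
  · rw [ModularForm.qExpansion_mcast,
      ModularForm.qExpansion_mul one_pos one_mem_strictPeriods_SL,
      ModularForm.qExpansion_pow one_pos one_mem_strictPeriods_SL,
      ModularForm.qExpansion_pow one_pos one_mem_strictPeriods_SL]
    have h4 := E_qExpansion_coeff_zero (k := 4) (by norm_num) ⟨2, rfl⟩
    have h6 := E_qExpansion_coeff_zero (k := 6) (by norm_num) ⟨3, rfl⟩
    rw [coeff_zero_eq_constantCoeff_apply] at h4 h6 ⊢
    rw [map_mul, map_pow, map_pow, h4, h6]
    simp

/-- multiplication by `1728 Δ` -/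
noncomputable def mulDelta (k : ℤ) : ModularForm 𝒮ℒ (k - 12) →ₗ[ℂ] ModularForm 𝒮ℒ k where
  toFun f := ModularForm.mcast (by ring) (Delta1728.mul f)
  map_add' f g := by
    ext z
    change Delta1728 z * (f z + g z) = Delta1728 z * f z + Delta1728 z * g z
    ring
  map_smul' c f := by
    ext z
    change Delta1728 z * (c * f z) = c * (Delta1728 z * f z)
    ring

theorem mulDelta_mem {k : ℤ} {f : ModularForm 𝒮ℒ (k - 12)} (hf : f ∈ intForms 𝒮ℒ (k - 12)) :
    mulDelta k f ∈ intForms 𝒮ℒ k := by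
  have h : qExpansion 1 (mulDelta k f) = qExpansion 1 Delta1728 * qExpansion 1 f := by
    rw [← ModularForm.qExpansion_mul one_pos one_mem_strictPeriods_SL]
    rfl
  rw [intForms, Set.mem_ofPred_eq, h]
  exact Subring.mul_mem _ Delta1728_mem hf

theorem span_intForms_levelOne_zero : Submodule.span ℂ (intForms 𝒮ℒ 0) = ⊤ := by
  rw [eq_top_iff]
  intro f _
  obtain ⟨c, hc⟩ := ModularFormClass.levelOne_weight_zero_const (F := ModularForm 𝒮ℒ 0) f
  have : f = c • (1 : ModularForm 𝒮ℒ 0) := by
    ext z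
    rw [hc]
    simp
  rw [this]
  have h1 : (1 : ModularForm 𝒮ℒ 0) ∈ intForms 𝒮ℒ 0 := by
    rw [intForms, Set.mem_ofPred_eq]
    refine ⟨1, ?_⟩
    rw [map_one]
    exact ModularForm.qExpansion_one.symm
  exact Submodule.smul_mem _ _ (Submodule.subset_span h1)

theorem span_intForms_levelOne_step {k : ℤ} (g : ModularForm 𝒮ℒ k) (hg : g ∈ intForms 𝒮ℒ k)
    (hg0 : (qExpansion 1 g).coeff 0 = 1)
    (h12 : Submodule.span ℂ (intForms 𝒮ℒ (k - 12)) = ⊤) :
    Submodule.span ℂ (intForms 𝒮ℒ k) = ⊤ := by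
  rw [eq_top_iff]
  intro f _
  set c := (qExpansion 1 f).coeff 0 with hc
  set φ : ModularForm 𝒮ℒ k := f - c • g with hφ
  have hcusp : (qExpansion 1 φ).coeff 0 = 0 :=
    (isCuspForm_iff_coeffZero_eq_zero φ).1 (sub_smul_isCuspForm f g hg0)
  set f' : ModularForm 𝒮ℒ (k - 12) :=
    CuspForm.discriminantEquiv (toCuspForm φ hcusp) with hf'
  have hmul : φ = (1 / 1728 : ℂ) • mulDelta k f' := by
    ext z
    have h1 := discriminant_mul_discriminantEquiv_apply (toCuspForm φ hcusp) z
    rw [toCuspForm_apply] at h1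
    rw [← h1]
    have h2 : mulDelta k f' z = Delta1728 z * f' z := rfl
    rw [_root_.smul_apply, h2, Delta1728_apply, smul_eq_mul, hf']
    ring
  have hmem : φ ∈ Submodule.span ℂ (intForms 𝒮ℒ k) := by
    rw [hmul]
    refine Submodule.smul_mem _ _ ?_
    have h3 : mulDelta k f' ∈ (Submodule.span ℂ (intForms 𝒮ℒ (k - 12))).map (mulDelta k) :=
      Submodule.mem_map_of_mem (by rw [h12]; trivial)
    rw [Submodule.map_span] at h3
    refine Submodule.span_mono ?_ h3
    rintro _ ⟨x, hx, rfl⟩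
    exact mulDelta_mem hx
  have : f = φ + c • g := by rw [hφ]; abel
  rw [this]
  exact add_mem hmem (Submodule.smul_mem _ _ (Submodule.subset_span hg))

theorem span_intForms_levelOne_neg {k : ℤ} (hk : k < 0) :
    Submodule.span ℂ (intForms 𝒮ℒ k) = ⊤ := by
  rw [eq_top_iff]
  intro f _
  rw [rank_zero_iff_forall_zero.mp (levelOne_neg_weight_rank_zero hk) f]
  exact zero_mem _

theorem span_intForms_levelOne_even (k : ℕ) (hk2 : Even k) :
    Submodule.span ℂ (intForms 𝒮ℒ k) = ⊤ := by
  induction k using Nat.strong_induction_on with | _ k ih =>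
  rcases Nat.lt_or_ge k 4 with hk | hk
  · have : k = 0 ∨ k = 2 := by
      obtain ⟨m, hm⟩ := hk2; omega
    rcases this with rfl | rfl
    · exact span_intForms_levelOne_zero
    · rw [eq_top_iff]
      intro f _
      have : f = 0 := rank_zero_iff_forall_zero.mp levelOne_weight_two_rank_zero f
      rw [this]
      exact zero_mem _
  · obtain ⟨g, hg, hg0⟩ := exists_intForm_coeff_zero_eq_one k hk hk2
    refine span_intForms_levelOne_step g hg hg0 ?_
    rcases Nat.lt_or_ge k 12 with hk12 | hk12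
    · exact span_intForms_levelOne_neg (by omega)
    · have h := ih (k - 12) (by omega) (by
        obtain ⟨m, hm⟩ := hk2
        exact ⟨m - 6, by omega⟩)
      have hcast : ((k - 12 : ℕ) : ℤ) = (k : ℤ) - 12 := by omega
      rw [hcast] at h
      exact h

/-- Level one modular forms are spanned by those with integral `q`-expansion. -/
theorem span_intForms_levelOne (k : ℤ) : Submodule.span ℂ (intForms 𝒮ℒ k) = ⊤ := by
  rcases lt_or_ge k 0 with hk | hk
  · rw [eq_top_iff]
    intro f _
    rw [rank_zero_iff_forall_zero.mp (levelOne_neg_weight_rank_zero hk) f]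
    exact zero_mem _
  rcases Int.even_or_odd k with hk2 | hk2
  · lift k to ℕ using hk
    exact span_intForms_levelOne_even k (by exact_mod_cast hk2)
  · rw [eq_top_iff]
    intro f _
    rw [levelOne_odd_weight_eq_zero hk2 f]
    exact zero_mem _

theorem qExpansion_levelOne_mem_intSpan {k : ℤ} (f : ModularForm 𝒮ℒ k) :
    qExpansion 1 f ∈ intSpan :=
  qExpansion_mem_intSpan_of_mem_span one_mem_strictPeriods_SL
    (by rw [span_intForms_levelOne]; trivial)

theorem exists_conj_levelOne {k : ℤ} (σ : ℂ →+* ℂ) (f : ModularForm 𝒮ℒ k) :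
    ∃ f' : ModularForm 𝒮ℒ k, qExpansion 1 f' = (qExpansion 1 f).map σ :=
  exists_conj_of_mem_span one_mem_strictPeriods_SL σ (by rw [span_intForms_levelOne]; trivial)

end Fermat.Agent.IntStruct
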