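import Mathlib
import Fermat.Prelude.Def_ModularForm_HeckeOperator
import Fermat.Prelude.Thm_CongruenceSubgroup_one_mem_strictPeriods_Gamma0
import Fermat.Prelude.Sol.S_ModularFormClass_qCoeff_heckeT
import Fermat.Prelude.Sol.S_ModularForm_heckeT_slash_eq_self_of_mem_Gamma0
import Fermat.Agent.IntStruct.LevelOne

/-!
# The modular form `N³ E₄(N z)` on `Γ₀(N)`

It has an integral `q`-expansion, and its stabiliser in `SL(2, ℤ)` is exactly `Γ₀(N)`.
-/

set_option autoImplicit false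

open UpperHalfPlane ModularForm MatrixGroups EisensteinSeries Matrix.SpecialLinearGroup Filter
  Topology CongruenceSubgroup

namespace Fermat.Agent.IntStruct

theorem mapGL_coe_apply (g : SL(2, ℤ)) (i j : Fin 2) :
    (mapGL ℝ g : GL (Fin 2) ℝ) i j = ((g i j : ℤ) : ℝ) := by
  simp

theorem exists_SL2Z (a b c d : ℤ) (h : a * d - b * c = 1) :
    ∃ g : SL(2, ℤ), g 0 0 = a ∧ g 0 1 = b ∧ g 1 0 = c ∧ g 1 1 = d :=
  ⟨⟨!![a, b; c, d], by rw [Matrix.det_fin_two_of]; exact h⟩, rfl, rfl, rfl, rfl⟩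

/-- decomposition of `diag(N,1) γ` as `γ' * [A, B; 0, D]` -/
theorem diag_mul_decomp (N : ℕ) [NeZero N] (γ : SL(2, ℤ)) :
    ∃ (A D : ℕ) (B : ℤ) (γ' : SL(2, ℤ)) (hAD : (A : ℝ) * D ≠ 0),
      A * D = N ∧ (A : ℤ) ∣ γ 1 0 ∧
      heckeDiagMatrix N * mapGL ℝ γ = mapGL ℝ γ' * upperTriangularGL A B D hAD := by
  have hN : (N : ℤ) ≠ 0 := by exact_mod_cast NeZero.ne N
  have hdet : γ 0 0 * γ 1 1 - γ 0 1 * γ 1 0 = 1 := by
    have h := γ.det_coe
    rwa [Matrix.det_fin_two] at h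
  set a := γ 0 0 with ha
  set b := γ 0 1 with hb
  set c := γ 1 0 with hc
  set d := γ 1 1 with hd
  set A : ℕ := Int.gcd (N * a) c with hA
  obtain ⟨a', ha'⟩ : (A : ℤ) ∣ N * a := Int.gcd_dvd_left _ _
  obtain ⟨c', hc'⟩ : (A : ℤ) ∣ c := Int.gcd_dvd_right _ _
  set u := Int.gcdA (N * a) c with hu
  set v := Int.gcdB (N * a) c with hv
  have hbez : (A : ℤ) = (N * a) * u + c * v := Int.gcd_eq_gcd_ab _ _
  have hAN : (A : ℤ) * (a' * d - c' * N * b) = N := by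
    have h1 : (A : ℤ) * (a' * d - c' * N * b) = (A * a') * d - (A * c') * N * b := by ring
    rw [h1, ← ha', ← hc']
    linear_combination (N : ℤ) * hdet
  have hA0 : (A : ℤ) ≠ 0 := by
    intro h
    rw [h, zero_mul] at hAN
    exact hN hAN.symm
  have hbez' : a' * u + c' * v = 1 := by
    apply mul_left_cancel₀ hA0
    rw [mul_one, mul_add, ← mul_assoc, ← mul_assoc, ← ha', ← hc', ← hbez]
  have hdvd : A ∣ N := by exact_mod_cast Dvd.intro _ hAN
  obtain ⟨D, hD⟩ := hdvd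
  have hD' : (D : ℤ) = a' * d - c' * N * b := by
    apply mul_left_cancel₀ hA0
    rw [hAN, hD]
    push_cast
    ring
  have hAD : (A : ℝ) * D ≠ 0 := by
    have : (A : ℝ) * D = N := by rw [hD]; push_cast; ring
    rw [this]
    exact_mod_cast NeZero.ne N
  obtain ⟨γ', g00, g01, g10, g11⟩ := exists_SL2Z a' (-v) c' u (by linear_combination hbez')
  refine ⟨A, D, u * N * b + v * d, γ', hAD, hD.symm, ⟨c', hc'⟩, ?_⟩
  · have e1 : (N : ℝ) * a = A * a' := by exact_mod_cast congrArg (Int.cast : ℤ → ℝ) ha'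
    have e2 : (c : ℝ) = A * c' := by exact_mod_cast congrArg (Int.cast : ℤ → ℝ) hc'
    have e3 : (D : ℝ) = a' * d - c' * N * b := by
      exact_mod_cast congrArg (Int.cast : ℤ → ℝ) hD'
    have e4 : (a' : ℝ) * u + c' * v = 1 := by exact_mod_cast congrArg (Int.cast : ℤ → ℝ) hbez'
    ext i j
    fin_cases i <;> fin_cases j <;>
      simp [NeZero.ne N, Matrix.mul_apply, Fin.sum_univ_two, ← ha, ← hb, ← hc, ← hd,
        g00, g01, g10, g11]
    · linear_combination e1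
    · rw [e3]
      linear_combination (-(N : ℝ) * b) * e4
    · linear_combination e2
    · rw [e3]
      linear_combination (-(d : ℝ)) * e4

theorem E₄_slash_mul (γ' : SL(2, ℤ)) (g : GL (Fin 2) ℝ) :
    (⇑E₄ ∣[(4 : ℤ)] (mapGL ℝ γ' * g)) = ⇑E₄ ∣[(4 : ℤ)] g := by
  rw [SlashAction.slash_mul]
  congr 1
  exact SlashInvariantFormClass.slash_action_eq E₄ (mapGL ℝ γ') ⟨γ', rfl⟩

theorem tendsto_E₄_atImInfty : Tendsto (⇑E₄) atImInfty (𝓝 1) := by
  have hanal := ModularFormClass.analyticAt_cuspFunction_zero E₄ one_pos one_mem_strictPeriods_SL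
  have h0 : cuspFunction 1 E₄ 0 = 1 := by
    have := E_qExpansion_coeff_zero (k := 4) (by norm_num) ⟨2, rfl⟩
    rw [UpperHalfPlane.qExpansion_coeff] at this
    simpa using this
  rw [← h0]
  exact (hanal.continuousAt.tendsto.comp (qParam_tendsto_atImInfty one_pos)).congr
    (fun τ ↦ SlashInvariantFormClass.eq_cuspFunction E₄ τ one_mem_strictPeriods_SL one_ne_zero)

theorem tendsto_E₄_slash_upperTriangular (A D : ℕ) (B : ℤ) (hAD : (A : ℝ) * D ≠ 0) :
    Tendsto (⇑E₄ ∣[(4 : ℤ)] upperTriangularGL A B D hAD) atImInfty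
      (𝓝 (((A * D : ℕ) : ℂ) ^ 3 * ((D : ℂ) ^ 4)⁻¹)) := by
  have hdet : ((upperTriangularGL A B D hAD).det : ℝ) = (A * D : ℕ) := by
    rw [Matrix.GeneralLinearGroup.val_det_apply, val_upperTriangularGL, Matrix.det_fin_two_of]
    push_cast
    ring
  have hpos : 0 < ((upperTriangularGL A B D hAD).det : ℝ) := by
    rw [hdet]
    push_cast
    exact lt_of_le_of_ne (by positivity) (Ne.symm hAD)
  have hfun : (⇑E₄ ∣[(4 : ℤ)] upperTriangularGL A B D hAD) = fun τ =>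
      E₄ (upperTriangularGL A B D hAD • τ) * (((A * D : ℕ) : ℂ) ^ 3 * ((D : ℂ) ^ 4)⁻¹) := by
    funext τ
    rw [ModularForm.slash_apply, UpperHalfPlane.σ, if_pos hpos, hdet]
    have hden : UpperHalfPlane.denom (upperTriangularGL A B D hAD) τ = D := by
      simp [UpperHalfPlane.denom]
    rw [hden]
    simp only [ContinuousAlgEquiv.refl_apply, Nat.abs_cast, Complex.ofReal_natCast, mul_assoc]
    congr 2
  rw [hfun]
  have h10 : (upperTriangularGL A B D hAD) 1 0 = 0 := by simp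
  have := (tendsto_E₄_atImInfty.comp (tendsto_smul_atImInfty h10)).mul_const
    (((A * D : ℕ) : ℂ) ^ 3 * ((D : ℂ) ^ 4)⁻¹)
  simpa using this

theorem isBoundedAtImInfty_E₄_slash_upperTriangular (A D : ℕ) (B : ℤ) (hAD : (A : ℝ) * D ≠ 0) :
    IsBoundedAtImInfty (⇑E₄ ∣[(4 : ℤ)] upperTriangularGL A B D hAD) :=
  (tendsto_E₄_slash_upperTriangular A D B hAD).isBigO_one ℝ

/-- `N³ E₄(N z)` as a modular form on `Γ₀(N)`. -/
noncomputable def EN (N : ℕ) [NeZero N] : ModularForm (Gamma0 N) 4 where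
  toFun := ⇑E₄ ∣[(4 : ℤ)] heckeDiagMatrix N
  slash_action_eq' := by
    rintro _ ⟨γ, hγ, rfl⟩
    have hdvd : (N : ℤ) ∣ γ 1 0 := (ZMod.intCast_zmod_eq_zero_iff_dvd _ _).1 (Gamma0_mem.1 hγ)
    obtain ⟨A, D, B, γ', hAD, hN, hA, h⟩ := diag_mul_decomp N γ
    obtain ⟨e, he⟩ := hdvd
    obtain ⟨γ'', -, h2⟩ := P2MW.S_ModularForm_heckeT_slash_eq_self_of_mem_Gamma0.ModularForm.HeckeSlashInvariance.heckeDiagMatrix_mul_of_eq' (NeZero.ne N) γ e he
    change (⇑E₄ ∣[(4 : ℤ)] heckeDiagMatrix N) ∣[(4 : ℤ)] (mapGL ℝ γ) = _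
    rw [← SlashAction.slash_mul, h2, E₄_slash_mul]
  holo' := E₄.holo'.slash 4 _
  bdd_at_cusps' {c} hc := by
    rw [Subgroup.IsArithmetic.isCusp_iff_isCusp_SL2Z] at hc
    rw [OnePoint.isBoundedAt_iff_forall_SL2Z hc]
    intro γ _
    obtain ⟨A, D, B, γ', hAD, hN, hA, h⟩ := diag_mul_decomp N γ
    rw [SL_slash, ← SlashAction.slash_mul]
    have h' : heckeDiagMatrix N * (γ : GL (Fin 2) ℝ) =
      mapGL ℝ γ' * upperTriangularGL A B D hAD := h
    rw [h', E₄_slash_mul]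
    exact isBoundedAtImInfty_E₄_slash_upperTriangular A D B hAD

theorem coe_EN (N : ℕ) [NeZero N] : ⇑(EN N) = ⇑E₄ ∣[(4 : ℤ)] heckeDiagMatrix N := rfl

theorem mem_Gamma0_of_slash_EN_eq {N : ℕ} [NeZero N] (γ : SL(2, ℤ))
    (h : ⇑(EN N) ∣[(4 : ℤ)] γ = ⇑(EN N)) : γ ∈ Gamma0 N := by
  obtain ⟨A, D, B, γ', hAD, hN, hA, hdec⟩ := diag_mul_decomp N γ
  have h1 : ⇑(EN N) ∣[(4 : ℤ)] γ = ⇑E₄ ∣[(4 : ℤ)] upperTriangularGL A B D hAD := by
    rw [coe_EN, SL_slash, ← SlashAction.slash_mul]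
    have h' : heckeDiagMatrix N * (γ : GL (Fin 2) ℝ) =
      mapGL ℝ γ' * upperTriangularGL A B D hAD := hdec
    rw [h', E₄_slash_mul]
  have hN1 : ((N : ℕ) : ℝ) * (1 : ℕ) ≠ 0 := by
    rw [Nat.cast_one, mul_one]; exact_mod_cast NeZero.ne N
  have h2 : ⇑(EN N) = ⇑E₄ ∣[(4 : ℤ)] upperTriangularGL N (0 : ℤ) (1 : ℕ) hN1 := by
    rw [coe_EN]
    congr 1
    ext i j
    fin_cases i <;> fin_cases j <;> simp [NeZero.ne N]
  have t1 := tendsto_E₄_slash_upperTriangular A D B hAD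
  have t2 := tendsto_E₄_slash_upperTriangular N 1 0 hN1
  rw [← h1, h, h2] at t1
  have := tendsto_nhds_unique t1 t2
  rw [hN, mul_one] at this
  have hN0 : ((N : ℂ)) ^ 3 ≠ 0 := pow_ne_zero _ (by exact_mod_cast NeZero.ne N)
  have h3 := mul_left_cancel₀ hN0 this
  rw [Nat.cast_one, one_pow, inv_one, inv_eq_one] at h3
  have h4 : D ^ 4 = 1 := by exact_mod_cast h3
  have h5 : D = 1 := by
    rcases Nat.pow_eq_one.1 h4 with h | h
    · exact h
    · omega
  rw [h5, mul_one] at hN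
  rw [Gamma0_mem, ZMod.intCast_zmod_eq_zero_iff_dvd, ← hN]
  exact hA

theorem EN_mem_intForms (N : ℕ) [NeZero N] : EN N ∈ intForms (Gamma0 N) 4 := by
  rw [intForms, Set.mem_ofPred_eq, mem_range_intMap_iff]
  have hN : N ≠ 0 := NeZero.ne N
  have hsum : ∀ τ : ℍ, HasSum (fun n : ℕ ↦ (if N ∣ n then (N : ℂ) ^ (4 - 1 : ℤ) *
      ModularFormClass.qCoeff E₄ (n / N) else 0) • Function.Periodic.qParam 1 τ ^ n) (EN N τ) := by
    intro τ
    have h := P2MW.S_ModularFormClass_qCoeff_heckeT.M4cP1W2.hasSum_diag (p := N) (f := ⇑E₄) hN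
      (SlashInvariantFormClass.periodic_comp_ofComplex E₄ one_mem_strictPeriods_SL)
      (ModularFormClass.holo E₄) (ModularFormClass.bdd_at_infty E₄) 4 τ
    rw [coe_EN, slash_heckeDiagMatrix_apply 4 hN]
    convert h using 2 with n
    split_ifs <;> simp
  have hcoeff := ModularFormClass.qExpansion_coeff_unique one_pos
    (CongruenceSubgroup.one_mem_strictPeriods_Gamma0 N) (f := EN N) hsum
  intro n
  rw [← hcoeff n]
  obtain ⟨m, hm⟩ := (mem_range_intMap_iff _).1 qExpansion_E₄_mem (n / N)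
  split_ifs with h
  · refine ⟨N ^ 3 * m, ?_⟩
    rw [ModularFormClass.qCoeff, ← hm]
    push_cast
    norm_num
  · exact ⟨0, by simp⟩

end Fermat.Agent.IntStruct
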