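import Mathlib

/-!
# Field automorphisms of `ℂ`

* every pair of embeddings of a countable field into `ℂ` differs by an automorphism of `ℂ`;
* a complex number fixed by all ring automorphisms of `ℂ` is rational.
-/

set_option autoImplicit false

open Cardinal Polynomial

namespace Fermat.Agent.IntStruct

theorem nonempty_algEquiv_of_card {K L₁ L₂ : Type} [Field K] [Field L₁] [Field L₂]
    [Algebra K L₁] [Algebra K L₂] [IsAlgClosed L₁] [IsAlgClosed L₂]
    (hK : #K ≤ ℵ₀) (h1 : ℵ₀ < #L₁) (h12 : #L₁ = #L₂) : Nonempty (L₁ ≃ₐ[K] L₂) := by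
  obtain ⟨s, hs⟩ := exists_isTranscendenceBasis K L₁
  obtain ⟨t, ht⟩ := exists_isTranscendenceBasis K L₂
  have cs : #L₁ = #s :=
    IsAlgClosed.cardinal_eq_cardinal_transcendence_basis_of_aleph0_lt' _ hs hK h1
  have ct : #L₂ = #t :=
    IsAlgClosed.cardinal_eq_cardinal_transcendence_basis_of_aleph0_lt' _ ht hK (h12 ▸ h1)
  obtain ⟨e⟩ : Nonempty (s ≃ t) := Cardinal.eq.1 (by rw [← cs, ← ct, h12])
  let := IsAlgClosed.isAlgClosure_of_transcendence_basis _ hs
  let := IsAlgClosed.isAlgClosure_of_transcendence_basis _ ht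
  let e' : Algebra.adjoin K (Set.range ((↑) : s → L₁)) ≃ₐ[K]
      Algebra.adjoin K (Set.range ((↑) : t → L₂)) :=
    (hs.1.aevalEquiv.symm.trans (MvPolynomial.renameEquiv K e)).trans ht.1.aevalEquiv
  let σ : L₁ ≃+* L₂ := IsAlgClosure.equivOfEquiv L₁ L₂ e'.toRingEquiv
  refine ⟨AlgEquiv.ofRingEquiv (f := σ) fun k => ?_⟩
  have h := IsAlgClosure.equivOfEquiv_algebraMap L₁ L₂ e'.toRingEquiv
    (algebraMap K (Algebra.adjoin K (Set.range ((↑) : s → L₁))) k)
  have h2 : e'.toRingEquiv (algebraMap K (Algebra.adjoin K (Set.range ((↑) : s → L₁))) k) =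
      algebraMap K (Algebra.adjoin K (Set.range ((↑) : t → L₂))) k := e'.commutes k
  rw [h2] at h
  exact h

/-- Two embeddings of a countable field into `ℂ` differ by an automorphism of `ℂ`. -/
theorem exists_ringEquiv_complex_comp {K : Type} [Field K] [Countable K] (φ ψ : K →+* ℂ) :
    ∃ σ : ℂ ≃+* ℂ, ∀ x, σ (φ x) = ψ x := by
  have h := @nonempty_algEquiv_of_card K ℂ ℂ _ _ _ φ.toAlgebra ψ.toAlgebra _ _
    (Cardinal.mk_le_aleph0) (by rw [Cardinal.mk_complex]; exact Cardinal.aleph0_lt_continuum) rfl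
  obtain ⟨σ⟩ := h
  exact ⟨@AlgEquiv.toRingEquiv _ _ _ _ _ _ φ.toAlgebra ψ.toAlgebra σ,
    fun x => @AlgEquiv.commutes _ _ _ _ _ _ φ.toAlgebra ψ.toAlgebra σ x⟩

theorem countable_polynomial_rat : Countable ℚ[X] := by
  rw [← Cardinal.mk_le_aleph0_iff]
  exact (Polynomial.cardinalMk_le_max (R := ℚ)).trans (max_le Cardinal.mk_le_aleph0 le_rfl)

/-- A complex number fixed by every field automorphism of `ℂ` is rational. -/
theorem exists_rat_of_forall_ringEquiv_fixed (z : ℂ) (h : ∀ σ : ℂ ≃+* ℂ, σ z = z) :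
    ∃ r : ℚ, (r : ℂ) = z := by
  have hcount := countable_polynomial_rat
  by_cases hz : IsAlgebraic ℚ z
  · -- algebraic case
    have hint : IsIntegral ℚ z := hz.isIntegral
    have hirr := minpoly.irreducible hint
    have : Fact (Irreducible (minpoly ℚ z)) := ⟨hirr⟩
    have hroot : ∀ w : ℂ, aeval w (minpoly ℚ z) = 0 → w = z := by
      intro w hw
      have : Countable (AdjoinRoot (minpoly ℚ z)) :=
        (AdjoinRoot.mk_surjective (g := minpoly ℚ z)).countable
      let φ : AdjoinRoot (minpoly ℚ z) →+* ℂ :=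
        AdjoinRoot.lift (algebraMap ℚ ℂ) z (by simpa [aeval_def] using minpoly.aeval ℚ z)
      let ψ : AdjoinRoot (minpoly ℚ z) →+* ℂ :=
        AdjoinRoot.lift (algebraMap ℚ ℂ) w (by simpa [aeval_def] using hw)
      obtain ⟨σ, hσ⟩ := exists_ringEquiv_complex_comp φ ψ
      have h1 := hσ (AdjoinRoot.root _)
      have h2 : φ (AdjoinRoot.root _) = z := AdjoinRoot.lift_root _
      have h3 : ψ (AdjoinRoot.root _) = w := AdjoinRoot.lift_root _
      rw [h2, h3, h σ] at h1
      exact h1.symm
    have hsep : (minpoly ℚ z).Separable := hirr.separable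
    have hsplit : ((minpoly ℚ z).map (algebraMap ℚ ℂ)).Splits := IsAlgClosed.splits _
    have hcard : ((minpoly ℚ z).map (algebraMap ℚ ℂ)).roots.card = (minpoly ℚ z).natDegree := by
      rw [← hsplit.natDegree_eq_card_roots, natDegree_map]
    have hle : ((minpoly ℚ z).map (algebraMap ℚ ℂ)).roots.card ≤ 1 := by
      have hnodup : ((minpoly ℚ z).map (algebraMap ℚ ℂ)).roots.Nodup :=
        nodup_roots (hsep.map)
      have hsub : ((minpoly ℚ z).map (algebraMap ℚ ℂ)).roots.toFinset ⊆ {z} := by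
        intro w hw
        rw [Multiset.mem_toFinset] at hw
        have := isRoot_of_mem_roots hw
        rw [Finset.mem_singleton]
        apply hroot
        rw [IsRoot.def, eval_map, ← aeval_def] at this
        exact this
      have := Finset.card_le_card hsub
      rw [Multiset.toFinset_card_of_nodup hnodup] at this
      simpa using this
    have hdeg : (minpoly ℚ z).natDegree = 1 :=
      le_antisymm (hcard ▸ hle) (minpoly.natDegree_pos hint)
    have hmem : z ∈ (algebraMap ℚ ℂ).range := minpoly.natDegree_eq_one_iff.1 hdeg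
    obtain ⟨r, hr⟩ := hmem
    exact ⟨r, by simpa using hr⟩
  · -- transcendental case
    exfalso
    have hz1 : Transcendental ℚ z := hz
    have hz2 : Transcendental ℚ (z + 1) := by
      intro h2
      apply hz1
      have := h2.sub (isAlgebraic_one (R := ℚ) (A := ℂ))
      simpa using this
    have inj1 : Function.Injective (aeval (R := ℚ) z) := transcendental_iff_injective.1 hz1
    have inj2 : Function.Injective (aeval (R := ℚ) (z + 1)) := transcendental_iff_injective.1 hz2
    have : Countable (FractionRing ℚ[X]) := by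
      have hs : Function.Surjective (fun p : ℚ[X] × nonZeroDivisors ℚ[X] =>
          IsLocalization.mk' (FractionRing ℚ[X]) p.1 p.2) := by
        intro x
        obtain ⟨a, b, hab⟩ := IsLocalization.exists_mk'_eq (nonZeroDivisors ℚ[X]) x
        exact ⟨(a, b), hab⟩
      exact hs.countable
    let φ : FractionRing ℚ[X] →+* ℂ :=
      IsFractionRing.lift (A := ℚ[X]) (K := FractionRing ℚ[X]) (g := (aeval (R := ℚ) z : ℚ[X] →ₐ[ℚ] ℂ).toRingHom) inj1
    let ψ : FractionRing ℚ[X] →+* ℂ :=
      IsFractionRing.lift (A := ℚ[X]) (K := FractionRing ℚ[X]) (g := (aeval (R := ℚ) (z + 1) : ℚ[X] →ₐ[ℚ] ℂ).toRingHom) inj2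
    obtain ⟨σ, hσ⟩ := exists_ringEquiv_complex_comp φ ψ
    have h1 := hσ (algebraMap ℚ[X] (FractionRing ℚ[X]) X)
    simp only [φ, ψ, IsFractionRing.lift_algebraMap] at h1
    have h2 : σ z = z + 1 := by simpa using h1
    rw [h σ] at h2
    simp at h2

end Fermat.Agent.IntStruct
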