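import Mathlib
import Fermat.Agent.IntStruct.AutC

/-!
# Galois descent from `ℂ` to `ℚ` for finite-dimensional spaces of sequences
-/

set_option autoImplicit false

open Module

namespace Fermat.Agent.IntStruct

/-- A finite-dimensional `ℂ`-vector space of complex sequences that is stable under the
coefficientwise action of all automorphisms of `ℂ` is spanned by its rational sequences. -/
theorem span_rational_eq_top {V : Type*} [AddCommGroup V] [Module ℂ V] [FiniteDimensional ℂ V]
    (e : V →ₗ[ℂ] (ℕ → ℂ)) (he : Function.Injective e)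
    (hσ : ∀ (σ : ℂ ≃+* ℂ) (v : V), ∃ w : V, ∀ n, e w n = σ (e v n)) :
    Submodule.span ℂ {v : V | ∀ n, ∃ r : ℚ, (r : ℂ) = e v n} = ⊤ := by
  classical
  -- the coefficient functionals
  let φ : ℕ → Dual ℂ V := fun n => (LinearMap.proj n).comp e
  have hφ : ∀ n v, φ n v = e v n := fun n v => rfl
  have hsep : ∀ v w : V, (∀ n, φ n v = φ n w) → v = w := by
    intro v w h
    exact he (funext h)
  set W : Submodule ℂ (Dual ℂ V) := Submodule.span ℂ (Set.range φ) with hW
  have hWtop : W = ⊤ := by
    have h1 : W.dualCoannihilator = ⊥ := by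
      rw [Submodule.eq_bot_iff]
      intro v hv
      apply hsep
      intro n
      rw [Submodule.mem_dualCoannihilator] at hv
      simpa using hv (φ n) (Submodule.subset_span ⟨n, rfl⟩)
    rw [← Subspace.dualCoannihilator_dualAnnihilator_eq (W := W), h1,
      Submodule.dualAnnihilator_bot]
  have hspan : ⊤ ≤ Submodule.span ℂ (Set.range φ) := hWtop ▸ le_rfl
  obtain ⟨ι, B, hB⟩ : ∃ (ι : Type _) (B : Basis ι ℂ (Dual ℂ V)), ∀ i, ∃ n, φ n = B i :=
    ⟨_, Basis.ofSpan hspan, fun i => Basis.ofSpan_subset hspan (Set.mem_range_self i)⟩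
  have hfin : Finite ι := Module.Finite.finite_basis B
  have : Fintype ι := Fintype.ofFinite ι
  choose c hc using hB
  let v : ι → V := fun j => (evalEquiv ℂ V).symm (B.dualBasis j)
  have hv : ∀ i j, B i (v j) = if j = i then 1 else 0 := by
    intro i j
    simp only [v, apply_evalEquiv_symm_apply]
    rw [Basis.dualBasis_apply_self]
    by_cases h : i = j <;> simp [h, eq_comm]
  have hsepB : ∀ v w : V, (∀ i, B i v = B i w) → v = w := by
    intro v w h
    have h2 : ∀ f : Dual ℂ V, f v = f w := by
      intro f
      rw [← B.sum_repr f]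
      simp only [LinearMap.sum_apply, LinearMap.smul_apply, h]
    apply hsep
    intro n
    exact h2 _
  -- the vectors `v j` are rational
  have hrat : ∀ j, v j ∈ {v : V | ∀ n, ∃ r : ℚ, (r : ℂ) = e v n} := by
    intro j n
    apply exists_rat_of_forall_ringEquiv_fixed
    intro σ
    obtain ⟨w, hw⟩ := hσ σ (v j)
    have : w = v j := by
      apply hsepB
      intro i
      rw [← hc i, hφ, hφ, hw, ← hφ, hc i, hv]
      split_ifs <;> simp
    rw [← hw, this]
  rw [eq_top_iff]
  intro x _
  have hx : x = ∑ i, B i x • v i := by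
    apply hsepB
    intro i
    simp [map_sum, hv]
  rw [hx]
  exact Submodule.sum_mem _ fun i _ => Submodule.smul_mem _ _ (Submodule.subset_span (hrat i))

end Fermat.Agent.IntStruct
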