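import Fermat.Agent.IntStruct.SigmaStable
import Fermat.Agent.IntStruct.LevelOne
import Fermat.Agent.IntStruct.Descent
import Fermat.Prelude.Def_CuspForm_IntegralStructure
import Fermat.Prelude.Thm_ModularForm_sturm_bound_Gamma0

/-!
Final assembly: `S_k(Γ₀(N))` has an integral structure for every weight `k`, given a form `g` on
`Γ₀(N)` with integral `q`-expansion whose stabiliser in `SL(2, ℤ)` is `Γ₀(N)`.
-/

set_option autoImplicit false

open UpperHalfPlane ModularForm Matrix.SpecialLinearGroup CongruenceSubgroup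
open scoped MatrixGroups Manifold ModularForm

noncomputable section

namespace Fermat.Agent.IntStruct

variable (N : ℕ) [NeZero N]

omit [NeZero N] in
lemma one_mem_G0 : (1 : ℝ) ∈ (Gamma0 N : Subgroup (GL (Fin 2) ℝ)).strictPeriods := by
  simp [CongruenceSubgroup.strictPeriods_Gamma0]

/-- `q`-expansion coefficients as a linear map. -/
def coeffLin (k : ℤ) : CuspForm (Gamma0 N) k →ₗ[ℂ] (ℕ → ℂ) where
  toFun f n := (qExpansion 1 f).coeff n
  map_add' f g := by
    ext n
    rw [FunLike.coe_add, ModularForm.qExpansion_add one_pos (one_mem_G0 N) f g]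
    simp
  map_smul' c f := by
    ext n
    rw [FunLike.coe_smul, ModularForm.qExpansion_smul one_pos (one_mem_G0 N) c f]
    simp

lemma coeffLin_apply {k : ℤ} (f : CuspForm (Gamma0 N) k) (n : ℕ) :
    coeffLin N k f n = (qExpansion 1 f).coeff n := rfl

lemma coeffLin_injective (k : ℤ) : Function.Injective (coeffLin N k) := by
  rw [injective_iff_map_eq_zero]
  intro f hf
  have h1 : (qExpansion 1 (f : ℍ → ℂ)) = 0 := by
    ext n
    exact congrFun hf n
  have h2 : (toQ (one_mem_G0 N) (f : ModularForm (Gamma0 N) k)) = 0 := by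
    apply qE_injective
    rw [map_zero]
    exact h1
  ext τ
  exact congrFun (congrArg Subtype.val h2) τ

lemma finiteDimensional_cuspForm (k : ℤ) : FiniteDimensional ℂ (CuspForm (Gamma0 N) k) := by
  set B := (k * (Gamma0 N).index).toNat / 12 with hB
  let L : CuspForm (Gamma0 N) k →ₗ[ℂ] (Fin (B + 1) → ℂ) :=
    (LinearMap.funLeft ℂ ℂ (fun i : Fin (B + 1) => (i : ℕ))).comp (coeffLin N k)
  refine FiniteDimensional.of_injective L ?_
  rw [injective_iff_map_eq_zero]
  intro f hf
  have h0 : (f : ModularForm (Gamma0 N) k) = 0 := by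
    refine ModularForm.sturm_bound_Gamma0 N (f : ModularForm (Gamma0 N) k) fun n hn => ?_
    exact congrFun hf ⟨n, by omega⟩
  ext τ
  exact congrFun (congrArg (fun g : ModularForm (Gamma0 N) k => (g : ℍ → ℂ)) h0) τ

/-- Conjugation of cusp forms by field automorphisms. -/
lemma exists_sigma_cusp {w : ℤ} (g : ModularForm (Gamma0 N) w)
    (hgint : qExpansion 1 g ∈ (intMap ℂ).range)
    (hg : ∀ γ : SL(2, ℤ), (g : ℍ → ℂ) ∣[w] γ = g → γ ∈ Gamma0 N) {k : ℤ} (σ : ℂ →+* ℂ)
    (f : CuspForm (Gamma0 N) k) :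
    ∃ f' : CuspForm (Gamma0 N) k, qExpansion 1 f' = (qExpansion 1 f).map σ := by
  obtain ⟨f', hf', hz⟩ := exists_sigma (one_mem_G0 N) σ (fun k f => exists_conj_levelOne σ f) g
    (by
      obtain ⟨G, hG⟩ := hgint
      rw [← hG]
      ext n
      simp) hg (f : ModularForm (Gamma0 N) k)
  refine ⟨{ toFun := f'
            slash_action_eq' := f'.slash_action_eq'
            holo' := f'.holo'
            zero_at_cusps' := ?_ }, hf'⟩
  intro c hc
  rw [Subgroup.IsArithmetic.isCusp_iff_isCusp_SL2Z] at hc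
  rw [OnePoint.isZeroAt_iff_forall_SL2Z hc]
  intro γ _
  exact hz (fun γ => CuspFormClass.zero_at_infty_slash f γ) γ

/-- Bounded denominators. -/
lemma exists_int_mul {w : ℤ} (g : ModularForm (Gamma0 N) w)
    (hgint : qExpansion 1 g ∈ (intMap ℂ).range)
    (hg : ∀ γ : SL(2, ℤ), (g : ℍ → ℂ) ∣[w] γ = g → γ ∈ Gamma0 N) {k : ℤ}
    (f : CuspForm (Gamma0 N) k) (hf : ∀ n, ∃ r : ℚ, (r : ℂ) = (qExpansion 1 f).coeff n) :
    ∃ D : ℤ, D ≠ 0 ∧ ∀ n, ∃ m : ℤ, (D : ℂ) * (qExpansion 1 f).coeff n = m := by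
  choose r hr using hf
  set B : PowerSeries ℚ := PowerSeries.mk r with hB
  have hBf : B.map (algebraMap ℚ ℂ) = qExpansion 1 f := by
    ext n
    simp [hB, ← hr]
  set h1 := one_mem_G0 N
  set F : ModularForm (Gamma0 N) k := (f : ModularForm (Gamma0 N) k) with hF
  obtain ⟨d, p, hp, -⟩ := exists_integral_eq F
  obtain ⟨n, h, hh⟩ := exists_interp g F
  obtain ⟨n0, h0, hh0⟩ := exists_interp g (1 : ModularForm (Gamma0 N) 0)
  have hDlag : ∀ τ, (combo h1 g n0 h0 : ℍ → ℂ) τ = (lagD g : ℍ → ℂ) τ := by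
    intro τ
    rw [combo_apply, ← hh0]
    simp
  have hDF : combo h1 g n h = combo h1 g n0 h0 * toQ h1 F := by
    refine Subtype.ext (funext fun τ => ?_)
    rw [combo_apply, ← hh, ← hDlag]
    rfl
  have hcombo : ∀ {m : ℤ} (n : ℕ) (h : ∀ i : ℕ, ModularForm 𝒮ℒ (m - w * i)),
      qE (combo h1 g n h) ∈ intSpan := by
    intro m n h
    simp only [combo, map_sum, map_mul, map_pow]
    refine sum_mem fun i _ => mul_mem ?_ (pow_mem ?_ _)
    · exact qExpansion_levelOne_mem_intSpan (h i)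
    · obtain ⟨G, hG⟩ := hgint
      rw [qE_apply, coe_toQ, ← hG]
      exact intMap_mem_intSpan G
  have hD0 : combo h1 g n0 h0 ≠ 0 := by
    intro h0
    apply lagD_ne_zero g hg
    ext τ
    rw [← hDlag, h0]
    rfl
  have hFq : qE (toQ h1 F) = B.map (algebraMap ℚ ℂ) := hBf.symm
  obtain ⟨D, hD, hDr⟩ := exists_int_mul_mem_range B d (fun i => qE (toQ one_mem_SL (p i)))
    (fun i _ => qExpansion_levelOne_mem_intSpan (p i))
    (by
      rw [← hFq, ← map_pow]
      simp only [← map_pow, ← map_mul]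
      rw [← map_sum, ← map_add, ← map_zero qE]
      congr 1
      refine Subtype.ext (funext fun τ => ?_)
      simpa using hp τ)
    (qE (combo h1 g n0 h0)) (hcombo n0 h0)
    (by rwa [Ne, map_eq_zero_iff _ qE_injective])
    (by rw [← hFq, ← map_mul, ← hDF]; exact hcombo n h)
  refine ⟨D, hD, fun n => ?_⟩
  rw [mem_range_intMap_iff] at hDr
  obtain ⟨m, hm⟩ := hDr n
  refine ⟨m, ?_⟩
  rw [PowerSeries.coeff_C_mul] at hm
  rw [← hr n]
  have : (r n : ℚ) = PowerSeries.coeff n B := by simp [hB]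
  rw [this]
  exact_mod_cast hm.symm

/-- **Integral structure for all weights.** -/
theorem hasIntegralStructure_of_form {w : ℤ} (g : ModularForm (Gamma0 N) w)
    (hgint : qExpansion 1 g ∈ (intMap ℂ).range)
    (hg : ∀ γ : SL(2, ℤ), (g : ℍ → ℂ) ∣[w] γ = g → γ ∈ Gamma0 N) (k : ℤ) :
    CuspForm.HasIntegralStructure N k := by
  have := finiteDimensional_cuspForm N k
  have h1 := span_rational_eq_top (coeffLin N k) (coeffLin_injective N k) (fun σ v => by
    obtain ⟨f', hf'⟩ := exists_sigma_cusp N g hgint hg (σ : ℂ →+* ℂ) v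
    refine ⟨f', fun n => ?_⟩
    rw [coeffLin_apply, coeffLin_apply, hf']
    simp)
  rw [CuspForm.HasIntegralStructure, eq_top_iff, ← h1, Submodule.span_le]
  intro f hf
  obtain ⟨D, hD, hDf⟩ := exists_int_mul N g hgint hg f hf
  have hDC : (D : ℂ) ≠ 0 := by exact_mod_cast hD
  have h2 : (D : ℂ) • f ∈ CuspForm.intLattice N k := by
    refine Submodule.subset_span fun n => ?_
    obtain ⟨m, hm⟩ := hDf n
    refine ⟨m, ?_⟩
    rw [ModularFormClass.qCoeff, ← coeffLin_apply, map_smul, Pi.smul_apply, coeffLin_apply,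
      smul_eq_mul, hm]
  have h3 : f = (D : ℂ)⁻¹ • ((D : ℂ) • f) := by
    rw [smul_smul, inv_mul_cancel₀ hDC, one_smul]
  rw [h3]
  exact Submodule.smul_mem _ _ (Submodule.subset_span h2)

end Fermat.Agent.IntStruct
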