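import Mathlib

/-!
Division lemma: if `u / v` satisfies a monic polynomial equation with holomorphic coefficients on the
upper half plane, then `v` divides `u` in the ring of holomorphic functions.
-/

set_option autoImplicit false

namespace Fermat.Agent.IntStruct

open UpperHalfPlane Filter Topology
open scoped Manifold

/-- A root of a monic polynomial is bounded by one plus the sum of norms of the coefficients. -/
theorem norm_le_of_monic_root {d : ℕ} {a : ℕ → ℂ} {x : ℂ}
    (h : x ^ d + ∑ i ∈ Finset.range d, a i * x ^ i = 0) :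
    ‖x‖ ≤ 1 + ∑ i ∈ Finset.range d, ‖a i‖ := by
  rcases le_or_gt ‖x‖ 1 with hx | hx
  · have : 0 ≤ ∑ i ∈ Finset.range d, ‖a i‖ := Finset.sum_nonneg fun i _ => norm_nonneg _
    linarith
  · rcases Nat.eq_zero_or_pos d with rfl | hd
    · simp at h
    · have h1 : x ^ d = -∑ i ∈ Finset.range d, a i * x ^ i := eq_neg_of_add_eq_zero_left h
      have h2 : ‖x‖ ^ d ≤ (∑ i ∈ Finset.range d, ‖a i‖) * ‖x‖ ^ (d - 1) := by
        calc ‖x‖ ^ d = ‖x ^ d‖ := (norm_pow x d).symm
          _ = ‖∑ i ∈ Finset.range d, a i * x ^ i‖ := by rw [h1, norm_neg]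
          _ ≤ ∑ i ∈ Finset.range d, ‖a i * x ^ i‖ := norm_sum_le _ _
          _ ≤ ∑ i ∈ Finset.range d, ‖a i‖ * ‖x‖ ^ (d - 1) := by
              refine Finset.sum_le_sum fun i hi => ?_
              rw [norm_mul, norm_pow]
              refine mul_le_mul_of_nonneg_left ?_ (norm_nonneg _)
              exact pow_le_pow_right₀ hx.le (by have := Finset.mem_range.mp hi; omega)
          _ = (∑ i ∈ Finset.range d, ‖a i‖) * ‖x‖ ^ (d - 1) := by rw [Finset.sum_mul]
      have h3 : ‖x‖ ^ d = ‖x‖ * ‖x‖ ^ (d - 1) := by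
        rw [← pow_succ']; congr 1; omega
      rw [h3] at h2
      have h4 : 0 < ‖x‖ ^ (d - 1) := pow_pos (by linarith) _
      have h5 := le_of_mul_le_mul_right h2 h4
      linarith

/-- Division lemma for holomorphic functions on the upper half plane. -/
theorem exists_div_of_integral (u v : ℍ → ℂ) (hu : MDiff u) (hv : MDiff v) (hv0 : v ≠ 0) (d : ℕ)
    (p : ℕ → ℍ → ℂ) (hp : ∀ i < d, MDiff (p i))
    (h : ∀ τ, u τ ^ d + ∑ i ∈ Finset.range d, p i τ * u τ ^ i * v τ ^ (d - i) = 0) :
    ∃ φ : ℍ → ℂ, MDiff φ ∧ ∀ τ, u τ = φ τ * v τ := by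
  set U : Set ℂ := {z | 0 < z.im} with hU
  have hUo : IsOpen U := isOpen_upperHalfPlaneSet
  set A : ℂ → ℂ := u ∘ ofComplex with hAdef
  set B : ℂ → ℂ := v ∘ ofComplex with hBdef
  have hA : AnalyticOnNhd ℂ A U := (UpperHalfPlane.mdifferentiable_iff.mp hu).analyticOnNhd hUo
  have hB : AnalyticOnNhd ℂ B U := (UpperHalfPlane.mdifferentiable_iff.mp hv).analyticOnNhd hUo
  have hUc : IsPreconnected U :=
    (Complex.isConnected_of_upperHalfPlane subset_rfl (by grind)).isPreconnected
  have hBne : ∀ z ∈ U, ∀ᶠ w in 𝓝[≠] z, B w ≠ 0 := by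
    intro z hz
    rcases (hB z hz).eventually_eq_zero_or_eventually_ne_zero with h0 | h0
    · exfalso
      apply hv0
      have := hB.eqOn_zero_of_preconnected_of_eventuallyEq_zero hUc hz h0
      ext τ
      have h1 := this τ.im_pos
      simpa [hBdef] using h1
    · exact h0
  set F : ℂ → ℂ := A / B with hF
  have hFm : MeromorphicOn F U := fun z hz => (hA z hz).meromorphicAt.div (hB z hz).meromorphicAt
  have hUn : ∀ z ∈ U, ∀ᶠ w in 𝓝[≠] z, w ∈ U := fun z hz =>
    mem_nhdsWithin_of_mem_nhds (hUo.mem_nhds hz)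
  -- the polynomial equation for `F`
  have hpoly : ∀ w ∈ U, B w ≠ 0 →
      F w ^ d + ∑ i ∈ Finset.range d, p i (ofComplex w) * F w ^ i = 0 := by
    intro w _ hBw
    have h1 := h (ofComplex w)
    have h2 : B w ^ d ≠ 0 := pow_ne_zero _ hBw
    have h3 : A w = F w * B w := by
      simp only [hF, Pi.div_apply]
      field_simp
    have h4 : (F w ^ d + ∑ i ∈ Finset.range d, p i (ofComplex w) * F w ^ i) * B w ^ d = 0 := by
      rw [add_mul, Finset.sum_mul, ← mul_pow, ← h3]
      rw [← h1]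
      refine congrArg₂ (· + ·) rfl (Finset.sum_congr rfl fun i hi => ?_)
      have hid : i < d := Finset.mem_range.mp hi
      have h5 : B w ^ d = B w ^ i * B w ^ (d - i) := by
        rw [← pow_add]; congr 1; omega
      rw [h5]
      change _ = p i (ofComplex w) * A w ^ i * B w ^ (d - i)
      rw [h3]
      ring
    exact (mul_eq_zero.mp h4).resolve_right h2
  have hord : ∀ z ∈ U, 0 ≤ meromorphicOrderAt F z := by
    intro z hz
    by_contra hneg
    rw [not_le] at hneg
    have htend := tendsto_cobounded_of_meromorphicOrderAt_neg hneg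
    rw [← tendsto_norm_atTop_iff_cobounded] at htend
    -- coefficients are locally bounded
    have hcont : ∀ i < d, ContinuousAt (p i ∘ ofComplex) z := fun i hi =>
      ((UpperHalfPlane.mdifferentiable_iff.mp (hp i hi)).differentiableAt (hUo.mem_nhds hz)).continuousAt
    have hbd : ∀ i ∈ Finset.range d,
        ∀ᶠ w in 𝓝 z, ‖p i (ofComplex w)‖ < ‖p i (ofComplex z)‖ + 1 := by
      intro i hi
      have := (hcont i (Finset.mem_range.mp hi)).norm
      exact this.eventually_lt continuousAt_const (by simp)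
    have hbd' : ∀ᶠ w in 𝓝 z, ∀ i ∈ Finset.range d,
        ‖p i (ofComplex w)‖ < ‖p i (ofComplex z)‖ + 1 := by
      rw [Filter.eventually_all_finset]; exact hbd
    have hbd'' : ∀ᶠ w in 𝓝[≠] z, ∀ i ∈ Finset.range d,
        ‖p i (ofComplex w)‖ < ‖p i (ofComplex z)‖ + 1 := hbd'.filter_mono nhdsWithin_le_nhds
    set M : ℝ := 1 + ∑ i ∈ Finset.range d, (‖p i (ofComplex z)‖ + 1) with hM
    have hle : ∀ᶠ w in 𝓝[≠] z, ‖F w‖ ≤ M := by
      filter_upwards [hbd'', hBne z hz, hUn z hz] with w hw1 hw2 hw3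
      have h1 := norm_le_of_monic_root (a := fun i => p i (ofComplex w)) (hpoly w hw3 hw2)
      refine h1.trans ?_
      rw [hM]
      gcongr with i hi
      exact (hw1 i hi).le
    have hgt : ∀ᶠ w in 𝓝[≠] z, M < ‖F w‖ := htend.eventually (eventually_gt_atTop M)
    obtain ⟨w, hw1, hw2⟩ := (hle.and hgt).exists
    linarith
  set Φ : ℂ → ℂ := toMeromorphicNFOn F U with hΦ
  have hΦan : ∀ z ∈ U, AnalyticAt ℂ Φ z := by
    intro z hz
    have hnf := meromorphicNFOn_toMeromorphicNFOn F U hz
    rw [← hnf.meromorphicOrderAt_nonneg_iff_analyticAt]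
    rw [meromorphicOrderAt_toMeromorphicNFOn hFm hz]
    exact hord z hz
  have hAΦB : ∀ z ∈ U, A z = Φ z * B z := by
    intro z hz
    have hev : A =ᶠ[𝓝[≠] z] fun w => Φ w * B w := by
      filter_upwards [hFm.toMeromorphicNFOn_eq_self_on_nhdsNE hz, hBne z hz] with w hw1 hw2
      have hw3 : Φ w = F w := hw1
      rw [hw3]
      simp only [hF, Pi.div_apply]
      field_simp
    have h1 : Tendsto A (𝓝[≠] z) (𝓝 (A z)) :=
      (hA z hz).continuousAt.tendsto.mono_left nhdsWithin_le_nhds
    have h2 : Tendsto (fun w => Φ w * B w) (𝓝[≠] z) (𝓝 (Φ z * B z)) :=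
      (((hΦan z hz).continuousAt.mul (hB z hz).continuousAt).tendsto).mono_left nhdsWithin_le_nhds
    exact tendsto_nhds_unique (h1.congr' hev) h2
  refine ⟨fun τ => Φ τ, ?_, ?_⟩
  · rw [UpperHalfPlane.mdifferentiable_iff]
    intro z hz
    have h1 : DifferentiableAt ℂ Φ z := (hΦan z hz).differentiableAt
    refine (h1.congr_of_eventuallyEq ?_).differentiableWithinAt
    filter_upwards [hUo.mem_nhds hz] with w hw
    simp only [Function.comp_apply]
    rw [ofComplex_apply_of_im_pos hw]
  · intro τ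
    have h1 := hAΦB τ τ.im_pos
    simpa [hAdef, hBdef] using h1

end Fermat.Agent.IntStruct
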