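import Fermat.Agent.IntStruct.Interp
import Fermat.Agent.IntStruct.Division

/-!
Stability of `q`-expansions of modular forms on `Γ` under field endomorphisms of `ℂ`.
-/

set_option autoImplicit false

open UpperHalfPlane ModularForm Matrix.SpecialLinearGroup
open scoped MatrixGroups Manifold ModularForm

noncomputable section

namespace Fermat.Agent.IntStruct

/-! ### Root bounds -/

lemma norm_le_of_root {d : ℕ} {x : ℂ} {c : ℕ → ℂ}
    (h : x ^ d + ∑ i ∈ Finset.range d, c i * x ^ i = 0) :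
    ‖x‖ ≤ 1 + ∑ i ∈ Finset.range d, ‖c i‖ := by
  have hS : 0 ≤ ∑ i ∈ Finset.range d, ‖c i‖ := Finset.sum_nonneg fun i _ => norm_nonneg _
  rcases le_or_gt ‖x‖ 1 with hx | hx
  · linarith
  have hd : d ≠ 0 := by
    rintro rfl
    simp at h
  have h1 : ‖x‖ ^ d ≤ (∑ i ∈ Finset.range d, ‖c i‖) * ‖x‖ ^ (d - 1) := by
    have : x ^ d = -∑ i ∈ Finset.range d, c i * x ^ i := eq_neg_of_add_eq_zero_left h
    rw [← norm_pow, this, norm_neg, Finset.sum_mul]
    refine (norm_sum_le _ _).trans (Finset.sum_le_sum fun i hi => ?_)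
    rw [norm_mul, norm_pow]
    have : i ≤ d - 1 := by
      have := Finset.mem_range.mp hi
      omega
    gcongr
    exact hx.le
  have h2 : ‖x‖ ^ d = ‖x‖ * ‖x‖ ^ (d - 1) := by
    rw [← pow_succ']
    congr 1
    omega
  rw [h2] at h1
  have h3 : ‖x‖ ≤ ∑ i ∈ Finset.range d, ‖c i‖ := le_of_mul_le_mul_right h1 (by positivity)
  linarith

lemma norm_pow_le_of_root {d : ℕ} {x : ℂ} {c : ℕ → ℂ}
    (h : x ^ d + ∑ i ∈ Finset.range d, c i * x ^ i = 0) :
    ‖x‖ ^ d ≤ (∑ i ∈ Finset.range d, ‖c i‖) * (1 + ∑ i ∈ Finset.range d, ‖c i‖) ^ d := by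
  have hS : 0 ≤ ∑ i ∈ Finset.range d, ‖c i‖ := Finset.sum_nonneg fun i _ => norm_nonneg _
  have hx := norm_le_of_root h
  have : x ^ d = -∑ i ∈ Finset.range d, c i * x ^ i := eq_neg_of_add_eq_zero_left h
  rw [← norm_pow, this, norm_neg, Finset.sum_mul]
  refine (norm_sum_le _ _).trans (Finset.sum_le_sum fun i hi => ?_)
  rw [norm_mul, norm_pow]
  gcongr
  calc ‖x‖ ^ i ≤ (1 + ∑ i ∈ Finset.range d, ‖c i‖) ^ i := by gcongr
    _ ≤ (1 + ∑ i ∈ Finset.range d, ‖c i‖) ^ d :=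
      pow_le_pow_right₀ (by linarith) (Finset.mem_range.mp hi).le

lemma isBoundedAtImInfty_of_root {d : ℕ} {x : ℍ → ℂ} {c : ℕ → ℍ → ℂ}
    (hc : ∀ i < d, IsBoundedAtImInfty (c i))
    (h : ∀ τ, x τ ^ d + ∑ i ∈ Finset.range d, c i τ * x τ ^ i = 0) :
    IsBoundedAtImInfty x := by
  have hb : IsBoundedAtImInfty (fun τ : ℍ => (1 : ℝ) + ∑ i ∈ Finset.range d, ‖c i τ‖) := by
    refine Asymptotics.IsBigO.add (Filter.const_boundedAtFilter _ (1 : ℝ)) ?_
    refine Asymptotics.IsBigO.fun_sum fun i hi => ?_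
    exact (hc i (Finset.mem_range.mp hi)).norm_left
  refine Asymptotics.IsBigO.trans (Asymptotics.IsBigO.of_norm_le fun τ => ?_) hb
  exact norm_le_of_root (h τ)

lemma isZeroAtImInfty_of_root {d : ℕ} {x : ℍ → ℂ} {c : ℕ → ℍ → ℂ}
    (hc : ∀ i < d, IsZeroAtImInfty (c i))
    (h : ∀ τ, x τ ^ d + ∑ i ∈ Finset.range d, c i τ * x τ ^ i = 0) :
    IsZeroAtImInfty x := by
  have hd : d ≠ 0 := by
    rintro rfl
    simpa using h UpperHalfPlane.I
  have h1 : Filter.Tendsto (fun τ : ℍ => ∑ i ∈ Finset.range d, ‖c i τ‖) atImInfty (nhds 0) := by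
    rw [show (0 : ℝ) = ∑ i ∈ Finset.range d, 0 by simp]
    refine tendsto_finsetSum _ fun i hi => ?_
    exact tendsto_zero_iff_norm_tendsto_zero.mp (hc i (Finset.mem_range.mp hi))
  have h2 : Filter.Tendsto (fun τ : ℍ => (∑ i ∈ Finset.range d, ‖c i τ‖) *
      (1 + ∑ i ∈ Finset.range d, ‖c i τ‖) ^ d) atImInfty (nhds 0) := by
    simpa using h1.mul ((h1.const_add 1).pow d)
  have h3 : Filter.Tendsto (fun τ : ℍ => ‖x τ‖ ^ d) atImInfty (nhds 0) :=
    squeeze_zero (fun τ => by positivity) (fun τ => norm_pow_le_of_root (h τ)) h2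
  have h4 : Filter.Tendsto (fun τ : ℍ => ‖x τ‖) atImInfty (nhds 0) := by
    have := h3.rpow_const (p := (1 / d : ℝ)) (Or.inr (by positivity))
    rw [Real.zero_rpow (by positivity)] at this
    refine this.congr fun τ => ?_
    rw [← Real.rpow_natCast, ← Real.rpow_mul (norm_nonneg _)]
    field_simp
    simp
  exact tendsto_zero_iff_norm_tendsto_zero.mpr h4

/-! ### The algebra of 1-periodic holomorphic functions bounded at `i∞` and `q`-expansions -/

/-- The algebra of 1-periodic holomorphic functions on `ℍ` that are bounded at `i∞`. -/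
def qAlg : Subalgebra ℂ (ℍ → ℂ) where
  carrier := {f | Function.Periodic (f ∘ ofComplex) 1 ∧ MDiff f ∧ IsBoundedAtImInfty f}
  mul_mem' {a b} ha hb := ⟨fun z => by
    have h1 := ha.1 z
    have h2 := hb.1 z
    simp only [Function.comp_apply, Pi.mul_apply] at *
    rw [h1, h2], ha.2.1.mul hb.2.1, ha.2.2.mul hb.2.2⟩
  add_mem' {a b} ha hb := ⟨fun z => by
    have h1 := ha.1 z
    have h2 := hb.1 z
    simp only [Function.comp_apply, Pi.add_apply] at *
    rw [h1, h2], ha.2.1.add hb.2.1, ha.2.2.add hb.2.2⟩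
  algebraMap_mem' r := ⟨fun z => rfl, mdifferentiable_const, Filter.const_boundedAtFilter _ r⟩

lemma qAlg_analytic (f : qAlg) : AnalyticAt ℂ (cuspFunction 1 (f : ℍ → ℂ)) 0 :=
  analyticAt_cuspFunction_zero one_pos (by simpa using f.2.1) f.2.2.1 f.2.2.2

/-- `q`-expansion as a ring homomorphism. -/
def qE : qAlg →+* PowerSeries ℂ where
  toFun f := qExpansion 1 (f : ℍ → ℂ)
  map_one' := qExpansion_one 1
  map_mul' f g := qExpansion_mul (qAlg_analytic f) (qAlg_analytic g)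
  map_zero' := qExpansion_zero 1
  map_add' f g := qExpansion_add (qAlg_analytic f) (qAlg_analytic g)

lemma qE_apply (f : qAlg) : qE f = qExpansion 1 (f : ℍ → ℂ) := rfl

lemma tendsto_coeff_zero (f : qAlg) :
    Filter.Tendsto (f : ℍ → ℂ) atImInfty (nhds ((qE f).coeff 0)) := by
  have h1 := (qAlg_analytic f).continuousAt.tendsto.comp (qParam_tendsto_atImInfty one_pos)
  have h2 : (cuspFunction 1 (f : ℍ → ℂ)) 0 = (qE f).coeff 0 := by
    rw [qE_apply, qExpansion_coeff]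
    simp
  rw [← h2]
  refine h1.congr fun τ => ?_
  exact eq_cuspFunction τ one_ne_zero (by simpa using f.2.1)

lemma isZeroAtImInfty_of_coeff_zero (f : qAlg) (h : (qE f).coeff 0 = 0) :
    IsZeroAtImInfty (f : ℍ → ℂ) := by
  have := tendsto_coeff_zero f
  rwa [h] at this

lemma coeff_zero_of_isZeroAtImInfty (f : qAlg) (h : IsZeroAtImInfty (f : ℍ → ℂ)) :
    (qE f).coeff 0 = 0 := tendsto_nhds_unique (tendsto_coeff_zero f) h

lemma qE_injective : Function.Injective qE := by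
  rw [injective_iff_map_eq_zero]
  intro f hf
  exact Subtype.ext ((qExpansion_eq_zero_iff one_pos (by simpa using f.2.1) f.2.2.1 f.2.2.2).mp hf)

/-- A modular form on a group containing the translation by 1, as an element of `qAlg`. -/
def toQ {Γ : Subgroup (GL (Fin 2) ℝ)} {k : ℤ} (h1 : (1 : ℝ) ∈ Γ.strictPeriods)
    (f : ModularForm Γ k) : qAlg :=
  ⟨f, by
    have : Fact (IsCusp OnePoint.infty Γ) := ⟨Γ.isCusp_of_mem_strictPeriods one_pos h1⟩
    exact ⟨by simpa using SlashInvariantFormClass.periodic_comp_ofComplex f h1,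
      ModularFormClass.holo f, ModularFormClass.bdd_at_infty f⟩⟩

@[simp] lemma coe_toQ {Γ : Subgroup (GL (Fin 2) ℝ)} {k : ℤ} (h1 : (1 : ℝ) ∈ Γ.strictPeriods)
    (f : ModularForm Γ k) : (toQ h1 f : ℍ → ℂ) = f := rfl

lemma one_mem_SL : (1 : ℝ) ∈ (𝒮ℒ : Subgroup (GL (Fin 2) ℝ)).strictPeriods := by simp

variable {Γ : Subgroup SL(2, ℤ)} {k w m : ℤ}

/-- A combination `∑ h_i g^i` of powers of `g` with coefficients level one forms. -/
def combo (h1 : (1 : ℝ) ∈ (Γ : Subgroup (GL (Fin 2) ℝ)).strictPeriods)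
    (g : ModularForm (Γ : Subgroup (GL (Fin 2) ℝ)) w) (n : ℕ)
    (h : ∀ i : ℕ, ModularForm 𝒮ℒ (m - w * i)) : qAlg :=
  ∑ i ∈ Finset.range n, toQ one_mem_SL (h i) * toQ h1 g ^ i

lemma combo_apply (h1 : (1 : ℝ) ∈ (Γ : Subgroup (GL (Fin 2) ℝ)).strictPeriods)
    (g : ModularForm (Γ : Subgroup (GL (Fin 2) ℝ)) w) (n : ℕ)
    (h : ∀ i : ℕ, ModularForm 𝒮ℒ (m - w * i)) (τ : ℍ) :
    (combo h1 g n h : ℍ → ℂ) τ = ∑ i ∈ Finset.range n, h i τ * g τ ^ i := by
  simp [combo]

lemma combo_inv (h1 : (1 : ℝ) ∈ (Γ : Subgroup (GL (Fin 2) ℝ)).strictPeriods)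
    (g : ModularForm (Γ : Subgroup (GL (Fin 2) ℝ)) w) (n : ℕ)
    (h : ∀ i : ℕ, ModularForm 𝒮ℒ (m - w * i)) (γ : SL(2, ℤ)) (hγ : γ ∈ Γ) (τ : ℍ) :
    (combo h1 g n h : ℍ → ℂ) (γ • τ) = denom γ τ ^ m * (combo h1 g n h : ℍ → ℂ) τ := by
  rw [combo_apply, combo_apply, Finset.mul_sum]
  refine Finset.sum_congr rfl fun i _ => ?_
  have hne : denom γ τ ≠ 0 := denom_ne_zero γ τ
  have e1 : h i (γ • τ) = denom γ τ ^ (m - w * i) * h i τ :=
    inv_of_slash_eq_self (SlashInvariantFormClass.slash_action_eq (h i) _ ⟨γ, rfl⟩) τ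
  have e2 : g (γ • τ) = denom γ τ ^ w * g τ :=
    inv_of_slash_eq_self (slash_eq_self g γ hγ) τ
  rw [e1, e2, zpow_sub₀ hne, zpow_mul, zpow_natCast, mul_pow]
  field_simp

/-- **σ-stability**: if `σ` preserves `q`-expansions of level one forms, `g` is a form on `Γ`
with `σ`-invariant `q`-expansion and stabiliser `Γ`, then `σ` preserves the `q`-expansions of
forms on `Γ`; it also preserves vanishing at all the cusps. -/
theorem exists_sigma [Γ.FiniteIndex] (h1 : (1 : ℝ) ∈ (Γ : Subgroup (GL (Fin 2) ℝ)).strictPeriods)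
    (σ : ℂ →+* ℂ)
    (hσ : ∀ (k : ℤ) (f : ModularForm 𝒮ℒ k), ∃ f' : ModularForm 𝒮ℒ k,
      qExpansion 1 f' = (qExpansion 1 f).map σ)
    (g : ModularForm (Γ : Subgroup (GL (Fin 2) ℝ)) w)
    (hgσ : (qExpansion 1 g).map σ = qExpansion 1 g)
    (hg : ∀ γ : SL(2, ℤ), (g : ℍ → ℂ) ∣[w] γ = g → γ ∈ Γ)
    (f : ModularForm (Γ : Subgroup (GL (Fin 2) ℝ)) k) :
    ∃ f' : ModularForm (Γ : Subgroup (GL (Fin 2) ℝ)) k,
      qExpansion 1 f' = (qExpansion 1 f).map σ ∧
      ((∀ γ : SL(2, ℤ), IsZeroAtImInfty ((f : ℍ → ℂ) ∣[k] γ)) →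
        ∀ γ : SL(2, ℤ), IsZeroAtImInfty ((f' : ℍ → ℂ) ∣[k] γ)) := by
  -- the integral equation and the interpolation formulas
  obtain ⟨d, p, hp, hp0⟩ := exists_integral_eq f
  obtain ⟨n, h, hh⟩ := exists_interp g f
  obtain ⟨n0, h0, hh0⟩ := exists_interp g (1 : ModularForm (Γ : Subgroup (GL (Fin 2) ℝ)) 0)
  -- apply `σ` to the level one forms
  choose p' hp' using fun i => hσ _ (p i)
  choose h' hh' using fun i => hσ _ (h i)
  choose h0' hh0' using fun i => hσ _ (h0 i)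
  set Φ := PowerSeries.map σ with hΦ
  have hΦinj : Function.Injective Φ := PowerSeries.map_injective σ σ.injective
  have hcombo : ∀ {m : ℤ} (n : ℕ) (h h' : ∀ i : ℕ, ModularForm 𝒮ℒ (m - w * i))
      (_ : ∀ i, qExpansion 1 (h' i) = Φ (qExpansion 1 (h i))),
      qE (combo h1 g n h') = Φ (qE (combo h1 g n h)) := by
    intro m n h h' hh
    simp only [combo, map_sum, map_mul, map_pow]
    refine Finset.sum_congr rfl fun i _ => ?_
    rw [qE_apply, qE_apply, qE_apply, coe_toQ, coe_toQ, coe_toQ, hh, hgσ]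
  -- the functions
  set F : qAlg := toQ h1 f with hF
  set D : qAlg := combo h1 g n0 h0 with hD
  set u : qAlg := combo h1 g n h' with hu
  set v : qAlg := combo h1 g n0 h0' with hv
  have hDlag : ∀ τ, (D : ℍ → ℂ) τ = (lagD g : ℍ → ℂ) τ := by
    intro τ
    rw [hD, combo_apply, ← hh0]
    simp
  have hDF : combo h1 g n h = D * F := by
    refine Subtype.ext (funext fun τ => ?_)
    rw [combo_apply, ← hh, ← hDlag]
    rfl
  have hqu : qE u = Φ (qE D) * Φ (qE F) := by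
    rw [hu, hcombo n h h' hh', hDF, map_mul, map_mul]
  have hqv : qE v = Φ (qE D) := hcombo n0 h0 h0' hh0'
  have hD0 : D ≠ 0 := by
    intro h0
    apply lagD_ne_zero g hg
    ext τ
    rw [← hDlag, h0]
    rfl
  have hqD0 : Φ (qE D) ≠ 0 := by
    rw [Ne, map_eq_zero_iff _ hΦinj, map_eq_zero_iff _ qE_injective]
    exact hD0
  have hv0 : v ≠ 0 := by
    intro h0
    rw [h0, map_zero] at hqv
    exact hqD0 hqv.symm
  -- the relation
  have hrel : u ^ d + ∑ i ∈ Finset.range d, toQ one_mem_SL (p' i) * u ^ i * v ^ (d - i) = 0 := by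
    apply qE_injective
    have hFrel : F ^ d + ∑ i ∈ Finset.range d, toQ one_mem_SL (p i) * F ^ i = 0 := by
      refine Subtype.ext (funext fun τ => ?_)
      simpa [hF] using hp τ
    have := congrArg (fun x => Φ (qE D) ^ d * Φ (qE x)) hFrel
    simp only [map_zero, mul_zero, map_add, map_pow, map_sum, map_mul] at this
    rw [map_zero, ← this]
    simp only [map_add, map_pow, map_sum, map_mul]
    rw [hqu, hqv, mul_add, mul_pow, Finset.mul_sum]
    congr 1
    refine Finset.sum_congr rfl fun i hi => ?_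
    have hi' : i ≤ d := (Finset.mem_range.mp hi).le
    rw [qE_apply (toQ one_mem_SL (p' i)), qE_apply (toQ one_mem_SL (p i)), coe_toQ, coe_toQ, hp',
      mul_pow]
    obtain ⟨e, rfl⟩ := Nat.exists_eq_add_of_le hi'
    rw [Nat.add_sub_cancel_left, pow_add]
    ring
  have hrel' : ∀ τ, (u : ℍ → ℂ) τ ^ d + ∑ i ∈ Finset.range d,
      (p' i : ℍ → ℂ) τ * (u : ℍ → ℂ) τ ^ i * (v : ℍ → ℂ) τ ^ (d - i) = 0 := by
    intro τ
    have := congrFun (congrArg Subtype.val hrel) τ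
    simpa using this
  have hv0' : (v : ℍ → ℂ) ≠ 0 := fun h => hv0 (Subtype.ext h)
  obtain ⟨φ, hφ, hφv⟩ := exists_div_of_integral (u : ℍ → ℂ) (v : ℍ → ℂ) u.2.2.1 v.2.2.1 hv0' d
    (fun i => (p' i : ℍ → ℂ)) (fun i _ => ModularFormClass.holo (p' i)) hrel'
  -- the equation for `φ`
  have hφeq : ∀ τ, φ τ ^ d + ∑ i ∈ Finset.range d, (p' i : ℍ → ℂ) τ * φ τ ^ i = 0 := by
    have hmd : MDiff (φ ^ d + ∑ i ∈ Finset.range d, (p' i : ℍ → ℂ) * φ ^ i) := by
      refine MDifferentiable.add (hφ.pow d) ?_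
      refine MDifferentiable.sum fun i _ => ?_
      exact (ModularFormClass.holo (p' i)).mul (hφ.pow i)
    have hprod : (v : ℍ → ℂ) ^ d * (φ ^ d + ∑ i ∈ Finset.range d, (p' i : ℍ → ℂ) * φ ^ i) = 0 := by
      ext τ
      have := hrel' τ
      simp only [Pi.mul_apply, Pi.pow_apply, Pi.add_apply, Finset.sum_apply, Pi.zero_apply]
      rw [← this, mul_add, Finset.mul_sum, hφv]
      congr 1
      · ring
      · refine Finset.sum_congr rfl fun i hi => ?_
        have hi' : i ≤ d := (Finset.mem_range.mp hi).le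
        obtain ⟨e, rfl⟩ := Nat.exists_eq_add_of_le hi'
        rw [Nat.add_sub_cancel_left, pow_add]
        ring
    rw [UpperHalfPlane.mul_eq_zero_iff (v.2.2.1.pow d) hmd] at hprod
    rcases hprod with hprod | hprod
    · exfalso
      apply hv0'
      ext τ
      have := congrFun hprod τ
      by_contra hne
      exact pow_ne_zero d hne this
    · intro τ
      have := congrFun hprod τ
      simpa using this
  -- the equation for `φ ∣[k] γ`
  have hφγ : ∀ γ : SL(2, ℤ), ∀ τ, (φ ∣[k] γ) τ ^ d + ∑ i ∈ Finset.range d,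
      (p' i : ℍ → ℂ) τ * (φ ∣[k] γ) τ ^ i = 0 := by
    intro γ τ
    have hne : denom γ τ ≠ 0 := denom_ne_zero γ τ
    have hne' : (denom γ τ ^ k) ≠ 0 := zpow_ne_zero _ hne
    have e0 : (φ ∣[k] γ) τ = φ (γ • τ) * (denom γ τ ^ k)⁻¹ := by
      rw [SL_slash_apply, zpow_neg]
    have e1 : ∀ i, p' i (γ • τ) = denom γ τ ^ (k * d - k * i) * p' i τ := fun i =>
      inv_of_slash_eq_self (SlashInvariantFormClass.slash_action_eq (p' i) _ ⟨γ, rfl⟩) τ
    have e2 := hφeq (γ • τ)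
    have e3 : (denom γ τ ^ k) ^ d * ((φ ∣[k] γ) τ ^ d + ∑ i ∈ Finset.range d,
        (p' i : ℍ → ℂ) τ * (φ ∣[k] γ) τ ^ i) = 0 := by
      rw [← e2, mul_add, Finset.mul_sum, e0]
      congr 1
      · rw [mul_pow, inv_pow]
        field_simp
      · refine Finset.sum_congr rfl fun i hi => ?_
        rw [e1, zpow_sub₀ hne, zpow_mul, zpow_mul, zpow_natCast, zpow_natCast, mul_pow, inv_pow]
        field_simp
    exact (mul_eq_zero.mp e3).resolve_left (pow_ne_zero _ hne')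
  have hbdd : ∀ γ : SL(2, ℤ), IsBoundedAtImInfty (φ ∣[k] γ) := fun γ =>
    isBoundedAtImInfty_of_root (c := fun i => (p' i : ℍ → ℂ))
      (fun i _ => ModularFormClass.bdd_at_infty (p' i)) (hφγ γ)
  -- invariance
  have hinv : ∀ γ ∈ Γ, φ ∣[k] γ = φ := by
    intro γ hγ
    have hz : (φ ∣[k] γ - φ) * (v : ℍ → ℂ) = 0 := by
      ext τ
      have hne : denom γ τ ≠ 0 := denom_ne_zero γ τ
      have e1 : (u : ℍ → ℂ) (γ • τ) = _ * (u : ℍ → ℂ) τ := combo_inv h1 g n h' γ hγ τ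
      have e2 : (v : ℍ → ℂ) (γ • τ) = _ * (v : ℍ → ℂ) τ := combo_inv h1 g n0 h0' γ hγ τ
      have e3 := hφv (γ • τ)
      rw [e1, e2, hφv τ] at e3
      rw [zpow_add₀ hne, zpow_add₀ hne, zpow_zero, one_mul] at e3
      have hne' : (denom γ τ ^ k) ≠ 0 := zpow_ne_zero _ hne
      set c := denom γ τ ^ (w * ((Fintype.card (SL(2, ℤ) ⧸ Γ) - 1 : ℕ) : ℤ)) with hc
      have hc0 : c ≠ 0 := zpow_ne_zero _ hne
      have e4 : c * (φ (γ • τ) * (v : ℍ → ℂ) τ - denom γ τ ^ k * (φ τ * (v : ℍ → ℂ) τ)) = 0 := by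
        linear_combination -e3
      have e5 := (mul_eq_zero.mp e4).resolve_left hc0
      simp only [Pi.mul_apply, Pi.sub_apply, Pi.zero_apply, SL_slash_apply, zpow_neg]
      field_simp
      linear_combination e5
    have hs : MDiff (φ ∣[k] γ - φ) := MDifferentiable.sub (hφ.slash k (mapGL ℝ γ)) hφ
    rw [UpperHalfPlane.mul_eq_zero_iff hs v.2.2.1] at hz
    exact sub_eq_zero.mp (hz.resolve_right hv0')
  let f' : ModularForm (Γ : Subgroup (GL (Fin 2) ℝ)) k :=
    { toFun := φ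
      slash_action_eq' := by
        rintro _ ⟨γ, hγ, rfl⟩
        exact hinv γ hγ
      holo' := hφ
      bdd_at_cusps' := by
        intro c hc
        rw [Subgroup.IsArithmetic.isCusp_iff_isCusp_SL2Z] at hc
        rw [OnePoint.isBoundedAt_iff_forall_SL2Z hc]
        intro γ _
        exact hbdd γ }
  refine ⟨f', ?_, fun hz γ => ?_⟩
  · have e1 : toQ h1 f' * v = u := by
      refine Subtype.ext (funext fun τ => ?_)
      exact (hφv τ).symm
    have e2 := congrArg qE e1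
    rw [map_mul, hqv, hqu, mul_comm] at e2
    exact mul_left_cancel₀ hqD0 e2
  · refine isZeroAtImInfty_of_root (c := fun i => (p' i : ℍ → ℂ)) (fun i hi => ?_) (hφγ γ)
    -- vanishing at infinity is read off the constant coefficient
    have hpz := hp0 hz i hi
    have hc1 := coeff_zero_of_isZeroAtImInfty (toQ one_mem_SL (p i)) hpz
    refine isZeroAtImInfty_of_coeff_zero (toQ one_mem_SL (p' i)) ?_
    rw [qE_apply, coe_toQ] at hc1 ⊢
    rw [hp', hΦ, PowerSeries.coeff_map, hc1, map_zero]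

end Fermat.Agent.IntStruct
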